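import Fermat.Agent.ErdosDivisor.Roots
import Fermat.Agent.RichertValues.Mertens
import Fermat.Agent.PrimesMinusOne.TotientSum
import Fermat.Agent.ErdosKac.Model
import Mathlib.NumberTheory.EulerProduct.Basic

/-!
# Sums over smooth numbers

With `G a = ∏_{p ∣ a} e ^ (g / p)`, `g = deg f`, the sum of `τ a ρ a G a / a * a ^ α` over the `a`
with all prime factors `≤ y` is `≪ (log y) ^ 2` when `0 ≤ α ≤ 1/4` and `α log y` is bounded.
-/

set_option autoImplicit false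

noncomputable section

namespace FA.ErdosDivisor

open Polynomial Finset Filter
open FA.RichertValues
open FA.ErdosKac (primesUpTo mem_primesUpTo)
open scoped Polynomial ArithmeticFunction.vonMangoldt

variable {f : ℤ[X]}

/-- Mertens for the roots, with a uniform constant. -/
theorem exists_abs_rootSum_le (hirr : Irreducible f) (hd : 0 < f.natDegree) :
    ∃ C : ℝ, ∀ n : ℕ, |rootSumUpTo f n - Real.log (Real.log n)| ≤ C := by
  obtain ⟨C, hC⟩ := exists_tendsto_rootSum hirr hd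
  obtain ⟨B, hB⟩ := hC.abs.bddAbove_range
  exact ⟨B, fun n => hB ⟨n, rfl⟩⟩

/-- `∏_{p ∣ a} e ^ (g / p)`. -/
def primeWeight (f : ℤ[X]) (a : ℕ) : ℝ :=
  ∏ p ∈ a.primeFactors, Real.exp ((f.natDegree : ℝ) / p)

theorem one_le_primeWeight (f : ℤ[X]) (a : ℕ) : 1 ≤ primeWeight f a :=
  Finset.one_le_prod fun p _ => Real.one_le_exp (by positivity)

/-- `τ a ρ a G a / a`. -/
def divTerm (f : ℤ[X]) (a : ℕ) : ℝ :=
  (#a.divisors : ℝ) * rootMod f a / a * primeWeight f a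

theorem divTerm_nonneg (f : ℤ[X]) (a : ℕ) : 0 ≤ divTerm f a := by
  have := one_le_primeWeight f a
  exact mul_nonneg (by positivity) (by linarith)

theorem divTerm_mul (f : ℤ[X]) {m n : ℕ} (h : m.Coprime n) :
    divTerm f (m * n) = divTerm f m * divTerm f n := by
  rcases Nat.eq_zero_or_pos m with rfl | hm
  · simp [divTerm]
  rcases Nat.eq_zero_or_pos n with rfl | hn
  · simp [divTerm]
  rw [divTerm, divTerm, divTerm, h.card_divisors_mul, rootMod_mul f h hm hn, primeWeight,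
    primeWeight, primeWeight, h.primeFactors_mul, prod_union h.disjoint_primeFactors]
  push_cast
  field_simp

theorem exp_sub_one_le (t : ℝ) : Real.exp t - 1 ≤ t * Real.exp t := by
  have h := mul_le_mul_of_nonneg_right (Real.add_one_le_exp (-t)) (Real.exp_pos t).le
  rw [← Real.exp_add, neg_add_cancel, Real.exp_zero] at h
  linarith

/-- **The Euler factors.** -/
theorem exists_local_le (hirr : Irreducible f) (hd : 0 < f.natDegree) : ∃ K : ℝ, 0 ≤ K ∧
    ∀ p : ℕ, p.Prime → ∀ α : ℝ, 0 ≤ α → α ≤ 1 / 4 →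
      Summable (fun j : ℕ => divTerm f (p ^ j) * ((p ^ j : ℕ) : ℝ) ^ α) ∧
      ∑' j : ℕ, divTerm f (p ^ j) * ((p ^ j : ℕ) : ℝ) ^ α ≤
        1 + 2 * (rootMod f p : ℝ) / p * (p : ℝ) ^ α + K * (p : ℝ) ^ (-(3 / 2) : ℝ) := by
  obtain ⟨R, -, hR⟩ := exists_rootMod_pow_le hirr hd
  obtain ⟨g, hg⟩ : ∃ g : ℝ, g = f.natDegree := ⟨_, rfl⟩
  have hg0 : 0 ≤ g := hg ▸ Nat.cast_nonneg _
  obtain ⟨S, hS⟩ : ∃ S : ℝ, S = ∑' j : ℕ, ((j : ℝ) + 3) * (3 / 4 : ℝ) ^ j := ⟨_, rfl⟩
  have hsum0 : Summable fun j : ℕ => ((j : ℝ) + 3) * (3 / 4 : ℝ) ^ j := by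
    have h1 := summable_pow_mul_geometric_of_norm_lt_one 1
      (show ‖(3 / 4 : ℝ)‖ < 1 by norm_num)
    have h2 := (summable_geometric_of_lt_one (show (0 : ℝ) ≤ 3 / 4 by norm_num)
      (by norm_num)).mul_left 3
    exact (h1.add h2).congr fun j => by ring
  have hS0 : 0 ≤ S := hS ▸ tsum_nonneg fun j => by positivity
  refine ⟨R * Real.exp g * S + 2 * g * g * Real.exp g, by positivity, fun p hp α hα0 hα => ?_⟩
  have hp0 : (0 : ℝ) < p := Nat.cast_pos.2 hp.pos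
  have hp2 : (2 : ℝ) ≤ p := Nat.ofNat_le_cast.2 hp.two_le
  have hp1 : (1 : ℝ) ≤ p := by linarith
  obtain ⟨q, hq⟩ : ∃ q : ℝ, q = (p : ℝ) ^ (-(3 / 4) : ℝ) := ⟨_, rfl⟩
  have hq0 : 0 ≤ q := hq ▸ by positivity
  have hq1 : q ≤ 3 / 4 := by
    rw [hq]
    calc (p : ℝ) ^ (-(3 / 4) : ℝ) ≤ (2 : ℝ) ^ (-(3 / 4) : ℝ) :=
          Real.rpow_le_rpow_of_nonpos (by norm_num) hp2 (by norm_num)
      _ ≤ 3 / 4 := by
          rw [← Real.rpow_le_rpow_iff (z := 4) (by positivity) (by norm_num) (by norm_num),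
            ← Real.rpow_mul (by norm_num)]
          norm_num
  have hE : Real.exp (g / p) ≤ Real.exp g := Real.exp_le_exp.2 (div_le_self hg0 hp1)
  have hterm : ∀ j : ℕ, divTerm f (p ^ j) * ((p ^ j : ℕ) : ℝ) ^ α ≤
      ((j : ℝ) + 1) * (R * Real.exp g) * q ^ j := by
    intro j
    have hG : primeWeight f (p ^ j) ≤ Real.exp g := by
      rcases Nat.eq_zero_or_pos j with rfl | hj
      · simp [primeWeight, Real.one_le_exp hg0]
      rw [primeWeight, Nat.primeFactors_prime_pow hj.ne' hp, prod_singleton, ← hg]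
      exact hE
    have hτ : ((p ^ j).divisors.card : ℝ) = (j : ℝ) + 1 := by
      rw [Nat.divisors_prime_pow hp, card_map, card_range]
      push_cast
      ring
    have hpq : ((p ^ j : ℕ) : ℝ) ^ α / ((p ^ j : ℕ) : ℝ) ≤ q ^ j := by
      push_cast
      rw [← Real.rpow_natCast_mul hp0.le, ← Real.rpow_natCast (p : ℝ) j, ← Real.rpow_sub hp0, hq,
        ← Real.rpow_mul_natCast hp0.le]
      refine Real.rpow_le_rpow_of_exponent_le hp1 ?_
      have := mul_le_mul_of_nonneg_left hα (Nat.cast_nonneg (α := ℝ) j)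
      linarith
    rw [divTerm, hτ]
    calc ((j : ℝ) + 1) * rootMod f (p ^ j) / ((p ^ j : ℕ) : ℝ) * primeWeight f (p ^ j) *
          ((p ^ j : ℕ) : ℝ) ^ α
        = ((j : ℝ) + 1) * (rootMod f (p ^ j) * primeWeight f (p ^ j)) *
            (((p ^ j : ℕ) : ℝ) ^ α / ((p ^ j : ℕ) : ℝ)) := by ring
      _ ≤ ((j : ℝ) + 1) * (R * Real.exp g) * q ^ j :=
          mul_le_mul (mul_le_mul_of_nonneg_left (mul_le_mul (Nat.cast_le.2 (hR p j hp)) hG
            (zero_le_one.trans (one_le_primeWeight f _)) (Nat.cast_nonneg _)) (by positivity))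
            hpq (by positivity) (by positivity)
  have hsum : Summable (fun j : ℕ => divTerm f (p ^ j) * ((p ^ j : ℕ) : ℝ) ^ α) := by
    refine Summable.of_nonneg_of_le (fun j => mul_nonneg (divTerm_nonneg f _) (by positivity))
      (fun j => (hterm j).trans ?_) (hsum0.mul_left (R * Real.exp g))
    rw [mul_comm ((j : ℝ) + 1), mul_assoc]
    gcongr
    norm_num
  refine ⟨hsum, ?_⟩
  rw [← hsum.sum_add_tsum_nat_add 2, sum_range_succ, sum_range_one]
  have e0 : divTerm f (p ^ 0) * ((p ^ 0 : ℕ) : ℝ) ^ α = 1 := by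
    simp [divTerm, primeWeight, rootMod_one]
  rw [e0, add_assoc, add_assoc]
  refine add_le_add le_rfl ?_
  have e2 : (p : ℝ) ^ (-(3 / 2) : ℝ) = q ^ 2 := by
    rw [hq, ← Real.rpow_mul_natCast hp0.le]
    norm_num
  have h1 : divTerm f (p ^ 1) * ((p ^ 1 : ℕ) : ℝ) ^ α ≤
      2 * (rootMod f p : ℝ) / p * (p : ℝ) ^ α + 2 * g * g * Real.exp g * q ^ 2 := by
    rw [pow_one, divTerm, primeWeight, hp.primeFactors, prod_singleton, hp.divisors, ← hg,
      card_pair hp.ne_one.symm]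
    push_cast
    have hρ : (rootMod f p : ℝ) ≤ g := hg ▸ Nat.cast_le.2 (rootMod_prime_le hirr hd hp)
    have hexp : Real.exp (g / p) ≤ 1 + g / p * Real.exp g := by
      have := exp_sub_one_le (g / p)
      have := mul_le_mul_of_nonneg_left hE (show 0 ≤ g / p by positivity)
      linarith
    have hpa : (p : ℝ) ^ α / ((p : ℝ) * p) ≤ q ^ 2 := by
      rw [← e2, ← sq, ← Real.rpow_natCast (p : ℝ) 2, ← Real.rpow_sub hp0]
      refine Real.rpow_le_rpow_of_exponent_le hp1 ?_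
      push_cast
      linarith
    calc 2 * (rootMod f p : ℝ) / p * Real.exp (g / p) * (p : ℝ) ^ α
        ≤ 2 * (rootMod f p : ℝ) / p * (1 + g / p * Real.exp g) * (p : ℝ) ^ α := by gcongr
      _ = 2 * (rootMod f p : ℝ) / p * (p : ℝ) ^ α +
            2 * (rootMod f p : ℝ) * g * Real.exp g * ((p : ℝ) ^ α / ((p : ℝ) * p)) := by ring
      _ ≤ _ := by gcongr
  have h2 : ∑' j : ℕ, divTerm f (p ^ (j + 2)) * ((p ^ (j + 2) : ℕ) : ℝ) ^ α ≤
      R * Real.exp g * S * q ^ 2 := by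
    rw [hS, show R * Real.exp g * (∑' j : ℕ, ((j : ℝ) + 3) * (3 / 4 : ℝ) ^ j) * q ^ 2 =
      R * Real.exp g * q ^ 2 * ∑' j : ℕ, ((j : ℝ) + 3) * (3 / 4 : ℝ) ^ j by ring, ← tsum_mul_left]
    refine Summable.tsum_le_tsum (fun j => (hterm (j + 2)).trans ?_)
      ((summable_nat_add_iff 2).2 hsum) (hsum0.mul_left _)
    push_cast
    rw [pow_add, show ((j : ℝ) + 2 + 1) * (R * Real.exp g) * (q ^ j * q ^ 2) =
      R * Real.exp g * q ^ 2 * (((j : ℝ) + 3) * q ^ j) by ring]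
    gcongr
  rw [e2]
  linarith

/-- `∑_{p ≤ y} log p / p ≤ log y + 6`. -/
theorem sum_log_prime_div_le {y : ℕ} (hy : 2 ≤ y) :
    ∑ p ∈ primesUpTo y, Real.log p / (p : ℝ) ≤ Real.log y + 6 := by
  refine le_trans ?_ (show ∑ d ∈ Ioc 0 y, Λ d / (d : ℝ) ≤ _ by
    linarith [(abs_le.1 (PrimesMinusOne.abs_sum_vonMangoldt_div_sub_le
      (n := y) (by omega))).2])
  refine le_trans (le_of_eq (sum_congr rfl fun p hp => ?_))
    (sum_le_sum_of_subset_of_nonneg (fun p hp => ?_) fun d _ _ =>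
      div_nonneg ArithmeticFunction.vonMangoldt_nonneg (Nat.cast_nonneg d))
  · rw [ArithmeticFunction.vonMangoldt_apply_prime (mem_primesUpTo.1 hp).1]
  · exact mem_Ioc.2 ⟨(mem_primesUpTo.1 hp).1.pos, (mem_primesUpTo.1 hp).2⟩

/-- **The sum over smooth numbers.** -/
theorem exists_smooth_sum_le (hirr : Irreducible f) (hd : 0 < f.natDegree) (c : ℝ) :
    ∃ C : ℝ, 0 < C ∧ ∀ y : ℕ, 2 ≤ y → ∀ α : ℝ, 0 ≤ α → α ≤ 1 / 4 → α * Real.log y ≤ c →
      ∀ s : Finset ℕ, (∀ a ∈ s, a ≠ 0 ∧ ∀ p ∈ a.primeFactors, p ≤ y) →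
        ∑ a ∈ s, divTerm f a * (a : ℝ) ^ α ≤ C * Real.log y ^ 2 := by
  obtain ⟨K, hK0, hK⟩ := exists_local_le hirr hd
  obtain ⟨B, hB⟩ := exists_abs_rootSum_le hirr hd
  obtain ⟨g, hg⟩ : ∃ g : ℝ, g = f.natDegree := ⟨_, rfl⟩
  have hg0 : 0 ≤ g := hg ▸ Nat.cast_nonneg _
  obtain ⟨S, hS⟩ : ∃ S : ℝ, S = ∑' n : ℕ, (n : ℝ) ^ (-(3 / 2) : ℝ) := ⟨_, rfl⟩
  have hsumS : Summable fun n : ℕ => (n : ℝ) ^ (-(3 / 2) : ℝ) :=
    Real.summable_nat_rpow.2 (by norm_num)
  refine ⟨Real.exp (2 * B + 2 * g * Real.exp c * (c + 2) + K * S), Real.exp_pos _,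
    fun y hy α hα0 hα hαy s hs => ?_⟩
  obtain ⟨F, hF⟩ : ∃ F : ℕ → ℝ, F = fun a => divTerm f a * (a : ℝ) ^ α := ⟨_, rfl⟩
  have hF0 : ∀ a, 0 ≤ F a := fun a => by
    rw [hF]; exact mul_nonneg (divTerm_nonneg f a) (by positivity)
  obtain ⟨hsum, hh⟩ := EulerProduct.summable_and_hasSum_factoredNumbers_prod_filter_prime_tsum
    (f := F) (by simp [hF, divTerm, primeWeight, rootMod_one])
    (fun {m n} h => by
      simp only [hF, divTerm_mul f h, Nat.cast_mul,
        Real.mul_rpow (Nat.cast_nonneg m) (Nat.cast_nonneg n)]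
      ring)
    (fun {p} hp => ((hK p hp α hα0 hα).1).congr fun j => by
      rw [Real.norm_of_nonneg (hF0 _), hF]) (primesUpTo y)
  rw [filter_true_of_mem fun p hp => (mem_primesUpTo.1 hp).1] at hh
  have hsub : ∀ a ∈ s, a ∈ Nat.factoredNumbers (primesUpTo y) := fun a ha =>
    Nat.mem_factoredNumbers.2 ⟨(hs a ha).1, fun p hp => mem_primesUpTo.2
      ⟨Nat.prime_of_mem_primeFactorsList hp,
        (hs a ha).2 p (Nat.mem_primeFactors_iff_mem_primeFactorsList.2 hp)⟩⟩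
  have h1 : ∑ a ∈ s, F a ≤ ∏ p ∈ primesUpTo y,
      (1 + 2 * (rootMod f p : ℝ) / p * (p : ℝ) ^ α + K * (p : ℝ) ^ (-(3 / 2) : ℝ)) := by
    refine le_trans ?_ (prod_le_prod (fun p _ => tsum_nonneg fun j => hF0 _) fun p hp => by
      rw [hF]; exact (hK p (mem_primesUpTo.1 hp).1 α hα0 hα).2)
    refine le_trans (le_of_eq ?_) (sum_le_hasSum (s.attach.map
      ⟨fun n => ⟨n.1, hsub n.1 n.2⟩, fun a b h => Subtype.ext (by simpa using h)⟩)
      (fun n _ => hF0 _) hh)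
    rw [sum_map, ← sum_attach s]
    rfl
  rw [show ∑ a ∈ s, divTerm f a * (a : ℝ) ^ α = ∑ a ∈ s, F a by rw [hF]]
  refine h1.trans ((prod_le_prod (g := fun p : ℕ => Real.exp (2 * ((rootMod f p : ℝ) / p) +
    2 * g * Real.exp c * (α * (Real.log p / p)) + K * (p : ℝ) ^ (-(3 / 2) : ℝ)))
    (fun p _ => by positivity) fun p hp => ?_).trans ?_)
  · obtain ⟨hpp, hpy⟩ := mem_primesUpTo.1 hp
    have hp0 : (0 : ℝ) < p := Nat.cast_pos.2 hpp.pos
    have hlp : 0 ≤ Real.log p := Real.log_natCast_nonneg p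
    have hρ : (rootMod f p : ℝ) ≤ g := hg ▸ Nat.cast_le.2 (rootMod_prime_le hirr hd hpp)
    have hpa : (p : ℝ) ^ α ≤ 1 + α * Real.log p * Real.exp c := by
      have h := exp_sub_one_le (α * Real.log p)
      rw [show (p : ℝ) ^ α = Real.exp (α * Real.log p) by
        rw [Real.rpow_def_of_pos hp0, mul_comm]]
      have : Real.exp (α * Real.log p) ≤ Real.exp c := Real.exp_le_exp.2
        ((mul_le_mul_of_nonneg_left (Real.log_le_log hp0 (Nat.cast_le.2 hpy)) hα0).trans hαy)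
      have := mul_le_mul_of_nonneg_left this (mul_nonneg hα0 hlp)
      linarith
    refine le_trans ?_ (Real.add_one_le_exp _)
    have : 2 * (rootMod f p : ℝ) / p * (p : ℝ) ^ α ≤ 2 * ((rootMod f p : ℝ) / p) +
        2 * g * Real.exp c * (α * (Real.log p / p)) := by
      calc 2 * (rootMod f p : ℝ) / p * (p : ℝ) ^ α
          ≤ 2 * (rootMod f p : ℝ) / p * (1 + α * Real.log p * Real.exp c) := by gcongr
        _ = 2 * ((rootMod f p : ℝ) / p) +
            2 * (rootMod f p : ℝ) * Real.exp c * (α * (Real.log p / p)) := by ring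
        _ ≤ _ := by gcongr
    linarith
  · rw [← Real.exp_sum, sum_add_distrib, sum_add_distrib, ← mul_sum, ← mul_sum, ← mul_sum,
      ← mul_sum]
    have hly : 0 < Real.log y := Real.log_pos (Nat.one_lt_cast.2 (by omega))
    have hl2 : Real.log y ^ 2 = Real.exp (2 * Real.log (Real.log y)) := by
      rw [show (2 : ℝ) = ((2 : ℕ) : ℝ) by norm_num, Real.exp_nat_mul, Real.exp_log hly]
    rw [hl2, ← Real.exp_add, Real.exp_le_exp]
    have hm : ∑ p ∈ primesUpTo y, (rootMod f p : ℝ) / p ≤ Real.log (Real.log y) + B := by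
      have := (abs_le.1 (hB y)).2
      rw [rootSumUpTo] at this
      have e : primesUpTo y = (Icc 1 y).filter Nat.Prime := rfl
      rw [e]
      linarith
    have hlog := sum_log_prime_div_le hy
    have hαlog : α * ∑ p ∈ primesUpTo y, Real.log p / (p : ℝ) ≤ c + 2 := by
      have := mul_le_mul_of_nonneg_left hlog hα0
      nlinarith
    have hS' : ∑ p ∈ primesUpTo y, (p : ℝ) ^ (-(3 / 2) : ℝ) ≤ S := by
      rw [hS]
      exact hsumS.sum_le_tsum _ fun n _ => by positivity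
    have := mul_le_mul_of_nonneg_left hαlog (show 0 ≤ 2 * g * Real.exp c by positivity)
    have := mul_le_mul_of_nonneg_left hS' hK0
    linarith

end FA.ErdosDivisor
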