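import Fermat.Agent.ErdosDivisor.Upper

/-!
# The lower bound `∑_{n ≤ x} τ (f n) ≫ x log x`

The divisors `d ≤ x / 2` alone give `x / 2 ∑_{d ≤ x / 2} ρ d / d`. The squarefree `d` with prime
factors `≤ u` make the product `∏_{p ≤ u} (1 + ρ p / p)`, of size `log u`, and Rankin's trick shows
that those above `y` are a small part of it when `u = y ^ (1/M)` for a large fixed `M`.
-/

set_option autoImplicit false

noncomputable section

namespace FA.ErdosDivisor

open Polynomial Finset Filter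
open FA.RichertValues
open FA.ErdosKac (primesUpTo mem_primesUpTo)
open scoped Polynomial

variable {f : ℤ[X]}

theorem rootMod_prod_primes (f : ℤ[X]) {t : Finset ℕ} (ht : ∀ p ∈ t, p.Prime) :
    rootMod f (∏ p ∈ t, p) = ∏ p ∈ t, rootMod f p := by
  induction t using Finset.induction_on with
  | empty => simp [rootMod_one]
  | insert q s hq ih =>
    have hs : ∀ p ∈ s, p.Prime := fun p hp => ht p (mem_insert_of_mem hp)
    have hqp := ht q (mem_insert_self q s)
    rw [prod_insert hq, prod_insert hq,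
      rootMod_mul f (Nat.Coprime.prod_right fun p hp =>
        (Nat.coprime_primes hqp (hs p hp)).2 fun h => hq (h ▸ hp))
        hqp.pos (prod_pos fun p hp => (hs p hp).pos), ih hs]

/-- The terms of a sum over squarefree numbers. -/
theorem prod_root_div_eq (f : ℤ[X]) {t : Finset ℕ} (ht : ∀ p ∈ t, p.Prime) :
    ∏ p ∈ t, (rootMod f p : ℝ) / p =
      (rootMod f (∏ p ∈ t, p) : ℝ) / ((∏ p ∈ t, p : ℕ) : ℝ) := by
  rw [prod_div_distrib, rootMod_prod_primes f ht, Nat.cast_prod, Nat.cast_prod]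

/-- **Rankin's trick.** -/
theorem head_le_sum (f : ℤ[X]) (u : ℕ) {y : ℕ} (hy : 0 < y) {α : ℝ} (hα : 0 ≤ α) :
    ∏ p ∈ primesUpTo u, (1 + (rootMod f p : ℝ) / p) -
        (y : ℝ) ^ (-α) * ∏ p ∈ primesUpTo u, (1 + (rootMod f p : ℝ) / p * (p : ℝ) ^ α) ≤
      ∑ d ∈ Icc 1 y, (rootMod f d : ℝ) / d := by
  rw [prod_one_add, prod_one_add, mul_sum, ← sum_sub_distrib]
  have hpr : ∀ t ∈ (primesUpTo u).powerset, ∀ p ∈ t, p.Prime := fun t ht p hp =>
    (mem_primesUpTo.1 (mem_powerset.1 ht hp)).1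
  rw [← sum_filter_add_sum_filter_not _ (fun t => ∏ p ∈ t, p ≤ y)]
  refine (add_le_add (sum_le_sum fun t _ => sub_le_self _ ?_)
    (sum_nonpos fun t ht => ?_)).trans ?_
  · exact mul_nonneg (by positivity) (prod_nonneg fun p _ => by positivity)
  · rw [mem_filter, not_le] at ht
    rw [prod_mul_distrib, ← mul_assoc, mul_comm ((y : ℝ) ^ (-α)), mul_assoc, sub_nonpos]
    refine le_mul_of_one_le_right (prod_nonneg fun p _ => by positivity) ?_
    rw [Real.finsetProd_rpow _ _ (fun p _ => Nat.cast_nonneg p), ← Nat.cast_prod]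
    have hy0 : (0 : ℝ) < y := Nat.cast_pos.2 hy
    rw [Real.rpow_neg hy0.le, inv_mul_eq_div, one_le_div (by positivity)]
    exact Real.rpow_le_rpow hy0.le (Nat.cast_le.2 ht.2.le) hα
  · rw [add_zero]
    refine le_trans (le_of_eq ?_) (sum_le_sum_of_subset_of_nonneg
      (s := (((primesUpTo u).powerset).filter fun t => ∏ p ∈ t, p ≤ y).image fun t => ∏ p ∈ t, p)
      ?_ fun d _ _ => by positivity)
    · rw [sum_image]
      · exact sum_congr rfl fun t ht => prod_root_div_eq f (hpr t (mem_filter.1 ht).1)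
      · intro s hs t ht hst
        have := congrArg Nat.primeFactors hst
        rwa [Nat.primeFactors_prod (hpr s (mem_filter.1 hs).1),
          Nat.primeFactors_prod (hpr t (mem_filter.1 ht).1)] at this
    · intro d hd
      rw [mem_image] at hd
      obtain ⟨t, ht, rfl⟩ := hd
      obtain ⟨ht1, ht2⟩ := mem_filter.1 ht
      exact mem_Icc.2 ⟨prod_pos fun p hp => (hpr t ht1 p hp).pos, ht2⟩

theorem sub_sq_le_log_one_add {t : ℝ} (ht : 0 ≤ t) : t - t ^ 2 / 2 ≤ Real.log (1 + t) := by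
  refine le_trans ?_ (Real.le_log_one_add_of_nonneg ht)
  rw [le_div_iff₀ (by linarith)]
  nlinarith [pow_nonneg ht 3]

/-- **`∑_{d ≤ y} ρ d / d ≫ log y`.** -/
theorem exists_sum_root_div_ge (hirr : Irreducible f) (hd : 0 < f.natDegree) :
    ∃ c : ℝ, 0 < c ∧ ∀ᶠ y : ℕ in atTop,
      c * Real.log y ≤ ∑ d ∈ Icc 1 y, (rootMod f d : ℝ) / d := by
  obtain ⟨B, hB⟩ := exists_abs_rootSum_le hirr hd
  obtain ⟨g, hg⟩ : ∃ g : ℝ, g = f.natDegree := ⟨_, rfl⟩
  have hg0 : 0 ≤ g := hg ▸ Nat.cast_nonneg _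
  obtain ⟨M, hM⟩ : ∃ M : ℝ, M = 13 * g * Real.exp 1 + g ^ 2 + 1 := ⟨_, rfl⟩
  have hM0 : 0 < M := hM ▸ by positivity
  refine ⟨Real.exp (-B - g ^ 2) / (4 * M), by positivity, ?_⟩
  filter_upwards [((tendsto_rpow_atTop (one_div_pos.2 hM0)).comp
    tendsto_natCast_atTop_atTop).eventually_ge_atTop 4, eventually_ge_atTop 2] with y hy4 hy2
  simp only [Function.comp_apply] at hy4
  obtain ⟨w, hw⟩ : ∃ w : ℝ, w = (y : ℝ) ^ (1 / M) := ⟨_, rfl⟩
  rw [← hw] at hy4
  obtain ⟨u, hu⟩ : ∃ u, u = ⌊w⌋₊ := ⟨_, rfl⟩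
  have hy0 : (0 : ℝ) < y := Nat.cast_pos.2 (by omega)
  have hu2 : 2 ≤ u := hu ▸ Nat.le_floor (by push_cast; linarith)
  have hu2' : (2 : ℝ) ≤ u := Nat.ofNat_le_cast.2 hu2
  have hluw : Real.log u ≤ Real.log y / M := by
    refine (Real.log_le_log (by linarith) (hu ▸ Nat.floor_le (by linarith))).trans_eq ?_
    rw [hw, Real.log_rpow hy0]
    ring
  have hlu : Real.log y / (2 * M) ≤ Real.log u := by
    have h : w ≤ (u : ℝ) ^ 2 := by
      have := Nat.lt_floor_add_one w
      rw [← hu] at this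
      nlinarith
    have := Real.log_le_log (by linarith) h
    rw [Real.log_pow, hw, Real.log_rpow hy0] at this
    push_cast at this
    rw [show Real.log y / (2 * M) = 1 / M * Real.log y / 2 by field_simp]
    linarith
  have hl2 : 0.69 ≤ Real.log u := by
    have := Real.log_le_log two_pos hu2'
    linarith [Real.log_two_gt_d9]
  have hlu0 : 0 < Real.log u := by linarith
  obtain ⟨α, hα⟩ : ∃ α : ℝ, α = 1 / Real.log u := ⟨_, rfl⟩
  have hα0 : 0 ≤ α := hα ▸ by positivity
  obtain ⟨S, hS⟩ : ∃ S : ℝ, S = ∑ p ∈ primesUpTo u, (rootMod f p : ℝ) / p := ⟨_, rfl⟩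
  have hS' : Real.log (Real.log u) - B ≤ S := by
    have e : S = rootSumUpTo f u := by rw [hS]; rfl
    have := (abs_le.1 (hB u)).1
    linarith
  have hρ : ∀ p ∈ primesUpTo u, (rootMod f p : ℝ) / p ≤ g / p := fun p hp => by
    gcongr
    exact hg ▸ Nat.cast_le.2 (rootMod_prime_le hirr hd (mem_primesUpTo.1 hp).1)
  have hhead : Real.exp (S - g ^ 2) ≤ ∏ p ∈ primesUpTo u, (1 + (rootMod f p : ℝ) / p) := by
    refine le_trans (Real.exp_le_exp.2 ?_) (le_of_eq (Real.exp_log (prod_pos fun p _ => by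
      positivity)))
    rw [Real.log_prod fun p _ => by positivity]
    refine le_trans ?_ (sum_le_sum fun p _ => sub_sq_le_log_one_add (by positivity))
    rw [sum_sub_distrib, ← hS]
    refine sub_le_sub_left ?_ _
    calc ∑ p ∈ primesUpTo u, ((rootMod f p : ℝ) / p) ^ 2 / 2
        ≤ ∑ p ∈ primesUpTo u, g ^ 2 / 2 * ((p : ℝ) ^ 2)⁻¹ := sum_le_sum fun p hp => by
          refine le_trans (div_le_div_of_nonneg_right
            (pow_le_pow_left₀ (by positivity) (hρ p hp) 2) zero_le_two) (le_of_eq ?_)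
          ring
      _ ≤ g ^ 2 / 2 * 2 := by
          rw [← mul_sum]
          refine mul_le_mul_of_nonneg_left ?_ (by positivity)
          refine (sum_le_sum_of_subset_of_nonneg (t := Ioo 0 (u + 1)) (fun p hp => ?_)
            fun p _ _ => by positivity).trans
              ((sum_Ioo_inv_sq_le 0 (u + 1)).trans_eq (by norm_num))
          exact mem_Ioo.2 ⟨(mem_primesUpTo.1 hp).1.pos,
            Nat.lt_succ_of_le (mem_primesUpTo.1 hp).2⟩
      _ = g ^ 2 := by ring
  have htail : (y : ℝ) ^ (-α) * ∏ p ∈ primesUpTo u, (1 + (rootMod f p : ℝ) / p * (p : ℝ) ^ α) ≤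
      Real.exp (S - g ^ 2) * Real.exp (-1) := by
    have hy' : (y : ℝ) ^ (-α) ≤ Real.exp (-M) := by
      rw [Real.rpow_def_of_pos hy0, Real.exp_le_exp, hα, mul_neg, neg_le_neg_iff, mul_one_div,
        le_div_iff₀ hlu0]
      rw [le_div_iff₀ hM0] at hluw
      linarith
    have hprod : ∏ p ∈ primesUpTo u, (1 + (rootMod f p : ℝ) / p * (p : ℝ) ^ α) ≤
        Real.exp (S + 13 * g * Real.exp 1) := by
      refine (prod_le_prod (g := fun p : ℕ => Real.exp ((rootMod f p : ℝ) / p +
        g * Real.exp 1 * (α * (Real.log p / p)))) (fun p _ => by positivity)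
          fun p hp => ?_).trans ?_
      · obtain ⟨hpp, hpu⟩ := mem_primesUpTo.1 hp
        have hp0 : (0 : ℝ) < p := Nat.cast_pos.2 hpp.pos
        have hlp : 0 ≤ Real.log p := Real.log_natCast_nonneg p
        have hpa : (p : ℝ) ^ α ≤ 1 + α * Real.log p * Real.exp 1 := by
          have h := exp_sub_one_le (α * Real.log p)
          have h1 : α * Real.log p ≤ 1 := by
            rw [hα, one_div_mul_eq_div, div_le_one hlu0]
            exact Real.log_le_log hp0 (Nat.cast_le.2 hpu)
          have := mul_le_mul_of_nonneg_left (Real.exp_le_exp.2 h1) (mul_nonneg hα0 hlp)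
          rw [Real.rpow_def_of_pos hp0, mul_comm (Real.log (p : ℝ))]
          linarith
        refine le_trans ?_ (Real.add_one_le_exp _)
        have h2 := mul_le_mul_of_nonneg_left hpa (show 0 ≤ (rootMod f p : ℝ) / p by positivity)
        have h3 := mul_le_mul_of_nonneg_right (hρ p hp)
          (show 0 ≤ α * Real.log p * Real.exp 1 by positivity)
        have e : g / p * (α * Real.log p * Real.exp 1) =
            g * Real.exp 1 * (α * (Real.log p / p)) := by ring
        linarith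
      · rw [← Real.exp_sum, Real.exp_le_exp, sum_add_distrib, ← hS, ← mul_sum, ← mul_sum]
        have h := mul_le_mul_of_nonneg_left (sum_log_prime_div_le hu2) hα0
        have h6 : α * (Real.log u + 6) ≤ 13 := by
          rw [hα, one_div_mul_eq_div, div_le_iff₀ hlu0]
          linarith
        have := mul_le_mul_of_nonneg_left (h.trans h6) (show 0 ≤ g * Real.exp 1 by positivity)
        linarith
    refine (mul_le_mul hy' hprod (prod_nonneg fun p _ => by positivity)
      (Real.exp_pos _).le).trans_eq ?_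
    rw [← Real.exp_add, ← Real.exp_add, hM]
    congr 1
    ring
  have hexp : Real.exp (-1) ≤ 1 / 2 := by
    rw [Real.exp_neg, inv_le_comm₀ (Real.exp_pos 1) (by norm_num)]
    linarith [Real.exp_one_gt_d9]
  refine le_trans ?_ (head_le_sum f u (show 0 < y by omega) hα0)
  have h1 : Real.exp (-B - g ^ 2) * Real.log u ≤ Real.exp (S - g ^ 2) := by
    conv_lhs => rw [← Real.exp_log hlu0, ← Real.exp_add]
    exact Real.exp_le_exp.2 (by linarith)
  have h2 := mul_le_mul_of_nonneg_left hexp (Real.exp_pos (S - g ^ 2)).le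
  have h3 := mul_le_mul_of_nonneg_left hlu (Real.exp_pos (-B - g ^ 2)).le
  have e : Real.exp (-B - g ^ 2) / (4 * M) * Real.log y =
      Real.exp (-B - g ^ 2) * (Real.log y / (2 * M)) / 2 := by ring
  linarith

theorem card_value_zero_le (hd : 0 < f.natDegree) (x : ℕ) :
    #((range x).filter fun n => value f n = 0) ≤ f.natDegree := by
  have hf : f ≠ 0 := fun h => by simp [h] at hd
  refine le_trans ?_ ((Multiset.toFinset_card_le _).trans (card_roots' f))
  refine card_le_card_of_injOn (fun n : ℕ => (n : ℤ)) (fun n hn => ?_)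
    Nat.cast_injective.injOn
  have hn' := (mem_filter.1 hn).2
  rw [value, Int.natAbs_eq_zero] at hn'
  rw [mem_coe, Multiset.mem_toFinset, mem_roots hf]
  exact hn'

theorem card_dvd_le (f : ℤ[X]) (y n : ℕ) :
    (#((Icc 1 y).filter fun d => d ∣ value f n) : ℝ) ≤
      #(value f n).divisors + (if value f n = 0 then (y : ℝ) else 0) := by
  split_ifs with h
  · have : (#((Icc 1 y).filter fun d => d ∣ value f n) : ℝ) ≤ y :=
      Nat.cast_le.2 ((card_filter_le _ _).trans (by rw [Nat.card_Icc, Nat.add_sub_cancel]))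
    linarith [(#(value f n).divisors).cast_nonneg (α := ℝ)]
  · rw [add_zero]
    exact Nat.cast_le.2 (card_le_card fun d hd =>
      Nat.mem_divisors.2 ⟨(mem_filter.1 hd).2, h⟩)

/-- **Erdős's lower bound.** -/
theorem exists_lower (hirr : Irreducible f) (hd : 0 < f.natDegree) :
    ∃ c : ℝ, 0 < c ∧ ∀ᶠ x : ℕ in atTop,
      c * x * Real.log x ≤ ∑ n ∈ range x, (#(value f n).divisors : ℝ) := by
  obtain ⟨c, hc, hev⟩ := exists_sum_root_div_ge hirr hd
  obtain ⟨y0, hy0⟩ := eventually_atTop.1 hev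
  obtain ⟨g, hg⟩ : ∃ g : ℝ, g = f.natDegree := ⟨_, rfl⟩
  have hg0 : 0 ≤ g := hg ▸ Nat.cast_nonneg _
  refine ⟨c / 8, by positivity, ?_⟩
  filter_upwards [eventually_ge_atTop (2 * y0 + 8), (Real.tendsto_log_atTop.comp
    tendsto_natCast_atTop_atTop).eventually_ge_atTop (4 * g / c)] with x hx hlx
  simp only [Function.comp_apply] at hlx
  obtain ⟨y, hy⟩ : ∃ y, y = x / 2 := ⟨_, rfl⟩
  have hmain := hy0 y (by omega)
  have hyx : (y : ℝ) ≤ x / 2 := by
    rw [le_div_iff₀ two_pos, ← Nat.cast_ofNat, ← Nat.cast_mul]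
    exact Nat.cast_le.2 (by omega)
  have hsq : x ≤ y ^ 2 := by
    have : 3 * y ≤ y ^ 2 := by rw [sq]; exact Nat.mul_le_mul_right y (by omega)
    omega
  have hlog : Real.log x / 2 ≤ Real.log y := by
    have h := Real.log_le_log (Nat.cast_pos.2 (by omega)) ((Nat.cast_le (α := ℝ)).2 hsq)
    rw [Nat.cast_pow, Real.log_pow] at h
    push_cast at h
    linarith
  have hterm : ∀ d ∈ Icc 1 y, (x : ℝ) / 2 * ((rootMod f d : ℝ) / d) ≤
      #((range x).filter fun n => d ∣ value f n) := fun d hd => by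
    obtain ⟨hd1, hd2⟩ := mem_Icc.1 hd
    have h := (abs_le.1 (abs_card_dvd_value_sub_le f hd1 x)).1
    have hd0 : (0 : ℝ) < d := Nat.cast_pos.2 hd1
    have h2 : (rootMod f d : ℝ) ≤ (x : ℝ) / 2 * ((rootMod f d : ℝ) / d) := by
      rw [← mul_div_assoc, le_div_iff₀ hd0, mul_comm]
      exact mul_le_mul_of_nonneg_right ((Nat.cast_le.2 hd2).trans hyx) (Nat.cast_nonneg _)
    linarith
  have hswap : ∑ d ∈ Icc 1 y, (#((range x).filter fun n => d ∣ value f n) : ℝ) ≤
      ∑ n ∈ range x, (#(value f n).divisors : ℝ) + y * g := by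
    calc ∑ d ∈ Icc 1 y, (#((range x).filter fun n => d ∣ value f n) : ℝ)
        = ∑ n ∈ range x, (#((Icc 1 y).filter fun d => d ∣ value f n) : ℝ) := by
          simp only [card_filter, Nat.cast_sum]
          exact sum_comm
      _ ≤ ∑ n ∈ range x, ((#(value f n).divisors : ℝ) +
            (if value f n = 0 then (y : ℝ) else 0)) := sum_le_sum fun n _ => card_dvd_le f y n
      _ ≤ _ := by
          rw [sum_add_distrib, ← sum_filter, sum_const, nsmul_eq_mul, mul_comm (y : ℝ)]
          gcongr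
          exact hg ▸ Nat.cast_le.2 (card_value_zero_le hd x)
  have hall := (sum_le_sum hterm).trans hswap
  rw [← mul_sum] at hall
  have h1 := mul_le_mul_of_nonneg_left
    ((mul_le_mul_of_nonneg_left hlog hc.le).trans hmain) (show 0 ≤ (x : ℝ) / 2 by positivity)
  have h2 : (y : ℝ) * g ≤ x / 2 * g := mul_le_mul_of_nonneg_right hyx hg0
  have h3 := mul_le_mul_of_nonneg_left hlx (show 0 ≤ (x : ℝ) * c / 8 by positivity)
  have e : (x : ℝ) * c / 8 * (4 * g / c) = x / 2 * g := by field_simp; ring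
  linarith

end FA.ErdosDivisor
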