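import Fermat.Agent.RichertValues.RootCount
import Fermat.Agent.RichertValues.Sieve
import Fermat.Agent.SquarefreeValues.Local
import Mathlib.RingTheory.Polynomial.GaussLemma

/-!
# Roots modulo prime powers

For `f` irreducible the roots modulo `p ^ k` are at most `deg f` when `p` is prime to an integer
`D ≠ 0` of the ideal `(f, f')`, and at most `|D| ^ 3` otherwise, uniformly in `k`.
-/

set_option autoImplicit false
set_option linter.style.haveILetI false

noncomputable section

namespace FA.ErdosDivisor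

open Polynomial Finset
open FA.RichertValues
open scoped Polynomial

variable {f : ℤ[X]}

theorem isPrimitive_of_irreducible (hirr : Irreducible f) (hd : 0 < f.natDegree) :
    f.IsPrimitive := hirr.isPrimitive hd.ne'

theorem map_zmod_ne_zero (hirr : Irreducible f) (hd : 0 < f.natDegree) {p : ℕ} (hp : p.Prime) :
    f.map (Int.castRingHom (ZMod p)) ≠ 0 := by
  intro h
  have hdvd : (C (p : ℤ)) ∣ f := by
    rw [C_dvd_iff_dvd_coeff]
    intro i
    rw [← ZMod.intCast_zmod_eq_zero_iff_dvd]
    have := congrArg (fun g => g.coeff i) h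
    simpa using this
  rcases Int.isUnit_iff.1 ((isPrimitive_of_irreducible hirr hd) _ hdvd) with h1 | h1
  · exact hp.ne_one (by exact_mod_cast h1)
  · exact absurd h1 (by omega)

/-- `ρ p ≤ deg f`. -/
theorem rootMod_prime_le (hirr : Irreducible f) (hd : 0 < f.natDegree) {p : ℕ} (hp : p.Prime) :
    rootMod f p ≤ f.natDegree := by
  haveI := Fact.mk hp
  rw [rootMod_prime_eq_card_roots f (map_zmod_ne_zero hirr hd hp)]
  exact (Multiset.toFinset_card_le _).trans ((card_roots' _).trans natDegree_map_le)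

/-- The roots modulo `p ^ k` are at most `p ^ δ` times the roots modulo `p ^ (δ + 1)`. -/
theorem rootMod_pow_le {u v : ℤ[X]} {D : ℤ} (h : u * f + v * derivative f = C D) {p δ : ℕ}
    (hp : p.Prime) (hDδ : ¬ (p : ℤ) ^ (δ + 1) ∣ D) {k : ℕ} (hk : 2 * δ + 1 ≤ k) :
    rootMod f (p ^ k) ≤ p ^ δ * rootMod f (p ^ (δ + 1)) := by
  have hP : 0 < p ^ (δ + 1) := pow_pos hp.pos _
  have hpZ : Prime (p : ℤ) := Nat.prime_iff_prime_int.1 hp
  refine card_le_mul_card_image_of_maps_to (f := fun r => r % p ^ (δ + 1)) ?_ _ ?_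
  · intro r hr
    rw [mem_filter, mem_range] at hr ⊢
    refine ⟨Nat.mod_lt r hP, ?_⟩
    have h1 : ((p ^ (δ + 1) : ℕ) : ℤ) ∣ f.eval (r : ℤ) :=
      (Int.natCast_dvd_natCast.2 (pow_dvd_pow p (by omega))).trans hr.2
    rw [dvd_eval_iff_zmod] at h1 ⊢
    rwa [Int.cast_natCast, ZMod.natCast_mod, ← Int.cast_natCast]
  · intro c _
    rcases ((((Finset.range (p ^ k)).filter fun r : ℕ =>
        ((p ^ k : ℕ) : ℤ) ∣ f.eval (r : ℤ)).filter
          fun r => r % p ^ (δ + 1) = c)).eq_empty_or_nonempty with he | ⟨r, hr⟩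
    · rw [he, card_empty]
      exact Nat.zero_le _
    have key : ∀ s ∈ (((Finset.range (p ^ k)).filter fun r : ℕ =>
        ((p ^ k : ℕ) : ℤ) ∣ f.eval (r : ℤ)).filter fun r => r % p ^ (δ + 1) = c),
        s % p ^ (k - δ) = r % p ^ (k - δ) := by
      intro s hs
      simp only [mem_filter, mem_range, Nat.cast_pow] at hr hs
      obtain ⟨⟨-, hrd⟩, hrc⟩ := hr
      obtain ⟨⟨-, hsd⟩, hsc⟩ := hs
      have hmod : (p : ℤ) ^ (δ + 1) ∣ (s : ℤ) - r := by
        have := Nat.modEq_iff_dvd.1 (show r % p ^ (δ + 1) = s % p ^ (δ + 1) by rw [hrc, hsc])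
        exact_mod_cast this
      obtain ⟨w, hw⟩ := binomExpansion f (r : ℤ) ((s : ℤ) - r)
      rw [add_sub_cancel] at hw
      obtain ⟨F, hF⟩ : ∃ F, F = (derivative f).eval (r : ℤ) + w * ((s : ℤ) - r) := ⟨_, rfl⟩
      have hFd : (p : ℤ) ^ k ∣ ((s : ℤ) - r) * F := by
        rw [show ((s : ℤ) - r) * F = f.eval (s : ℤ) - f.eval (r : ℤ) by rw [hF, hw]; ring]
        exact dvd_sub hsd hrd
      have hF' : ¬ (p : ℤ) ^ (δ + 1) ∣ F := fun hd' => hDδ <| by
        have e := congrArg (eval (r : ℤ)) h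
        rw [eval_add, eval_mul, eval_mul, eval_C] at e
        rw [← e]
        refine dvd_add (Dvd.dvd.mul_left ((pow_dvd_pow _ (by omega)).trans hrd) _)
          (Dvd.dvd.mul_left ?_ _)
        rw [show (derivative f).eval (r : ℤ) = F - w * ((s : ℤ) - r) by rw [hF]; ring]
        exact dvd_sub hd' (hmod.mul_left _)
      refine (Nat.modEq_iff_dvd.2 ?_).symm
      push_cast
      rcases eq_or_ne ((s : ℤ) - r) 0 with h0 | h0
      · rw [h0]
        exact dvd_zero _
      obtain ⟨a, t, ht, hat⟩ :=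
        WfDvdMonoid.max_power_factor h0 hpZ.irreducible
      rw [hat] at hFd ⊢
      by_cases ha : k - δ ≤ a
      · exact (pow_dvd_pow _ ha).mul_right _
      · exfalso
        refine hF' ?_
        have h1 : (p : ℤ) ^ (δ + 1) ∣ t * F := by
          refine (mul_dvd_mul_iff_left (pow_ne_zero a hpZ.ne_zero)).1 ?_
          rw [← pow_add, ← mul_assoc]
          exact (pow_dvd_pow _ (by omega)).trans hFd
        exact ((hpZ.coprime_iff_not_dvd.2 ht).pow_left).dvd_of_dvd_mul_left h1
    refine (card_le_card_of_injOn (fun s => s / p ^ (k - δ)) (t := Finset.range (p ^ δ))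
      (fun s hs => ?_) fun s hs t ht hst => ?_).trans (card_range _).le
    · rw [mem_coe, mem_range]
      refine Nat.div_lt_of_lt_mul ?_
      rw [← pow_add, show k - δ + δ = k by omega]
      exact mem_range.1 (mem_filter.1 (mem_filter.1 hs).1).1
    · rw [← Nat.mod_add_div s (p ^ (k - δ)), ← Nat.mod_add_div t (p ^ (k - δ)), key s hs, key t ht,
        show s / p ^ (k - δ) = t / p ^ (k - δ) from hst]

/-- **Bounded roots modulo all prime powers.** -/
theorem exists_rootMod_pow_le (hirr : Irreducible f) (hd : 0 < f.natDegree) :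
    ∃ R : ℕ, 1 ≤ R ∧ ∀ p k : ℕ, p.Prime → rootMod f (p ^ k) ≤ R := by
  have hsep : (f.map (Int.castRingHom ℚ)).Separable :=
    ((IsPrimitive.Int.irreducible_iff_irreducible_map_cast
      (isPrimitive_of_irreducible hirr hd)).1 hirr).separable
  obtain ⟨D, u, v, hD, h⟩ := SquarefreeValues.exists_bezout hsep
  refine ⟨f.natDegree + D.natAbs ^ 3 + 1, by omega, fun p k hp => ?_⟩
  haveI : Fact p.Prime := ⟨hp⟩
  obtain ⟨δ, hδ⟩ : ∃ δ, δ = padicValInt p D := ⟨_, rfl⟩
  have hpd : (p : ℤ) ^ δ ∣ D := by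
    rw [hδ]
    exact_mod_cast padicValInt_dvd (p := p) D
  have hnd : ¬ (p : ℤ) ^ (δ + 1) ∣ D := fun hc => by
    have := ((padicValInt_dvd_iff (p := p) (δ + 1) D).1 (by exact_mod_cast hc)).resolve_left hD
    omega
  have hle : p ^ δ ≤ D.natAbs := Nat.le_of_dvd (Int.natAbs_pos.2 hD) (by
    have := Int.natAbs_dvd_natAbs.2 hpd
    rwa [Int.natAbs_pow, Int.natAbs_natCast] at this)
  have htriv : ∀ j, rootMod f (p ^ j) ≤ p ^ j := fun j =>
    (card_filter_le _ _).trans (card_range _).le
  rcases Nat.eq_zero_or_pos δ with h0 | h0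
  · rcases Nat.eq_zero_or_pos k with rfl | hk
    · rw [pow_zero, rootMod_one]
      omega
    have := rootMod_pow_le h hp (δ := 0) (h0 ▸ hnd) (k := k) (by omega)
    rw [pow_zero, one_mul, zero_add, pow_one] at this
    have := rootMod_prime_le hirr hd hp
    omega
  · have h3 : p ^ (2 * δ + 1) ≤ D.natAbs ^ 3 :=
      (Nat.pow_le_pow_right hp.pos (show 2 * δ + 1 ≤ δ * 3 by omega)).trans
        (pow_mul p δ 3 ▸ Nat.pow_le_pow_left hle 3)
    rcases lt_or_ge k (2 * δ + 1) with hk | hk
    · have := (htriv k).trans (Nat.pow_le_pow_right hp.pos hk.le)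
      omega
    · have := (rootMod_pow_le h hp hnd hk).trans (Nat.mul_le_mul_left _ (htriv (δ + 1)))
      rw [← pow_add, show δ + (δ + 1) = 2 * δ + 1 by omega] at this
      omega

theorem rootMod_eq_prod (f : ℤ[X]) {a : ℕ} (ha : a ≠ 0) :
    rootMod f a = ∏ p ∈ a.primeFactors, rootMod f (p ^ a.factorization p) := by
  induction a using Nat.recOnPrimeCoprime with
  | zero => exact absurd rfl ha
  | prime_pow p n hp =>
    rcases Nat.eq_zero_or_pos n with rfl | hn
    · simp [rootMod_one]
    rw [Nat.primeFactors_prime_pow hn.ne' hp, prod_singleton, hp.factorization_pow,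
      Finsupp.single_eq_same]
  | coprime m n hm hn h ihm ihn =>
    rw [rootMod_mul f h (by omega) (by omega), ihm (by omega), ihn (by omega),
      h.primeFactors_mul, prod_union h.disjoint_primeFactors]
    congr 1 <;> refine prod_congr rfl fun p hp => ?_
    · rw [Nat.factorization_mul_of_coprime h, Finsupp.add_apply,
        (Finsupp.notMem_support_iff (f := n.factorization)).1
          (disjoint_left.1 h.disjoint_primeFactors hp), add_zero]
    · rw [Nat.factorization_mul_of_coprime h, Finsupp.add_apply,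
        (Finsupp.notMem_support_iff (f := m.factorization)).1
          (disjoint_right.1 h.disjoint_primeFactors hp), zero_add]

end FA.ErdosDivisor
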