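import Fermat.Agent.ErdosDivisor.Euler
import Fermat.Agent.CombinatorialSieve.Sieve
import Fermat.Agent.CombinatorialSieve.Dimension

/-!
# The sieve, uniform in `a`

Among the `n < x` with `a ∣ f n` those whose values have no prime factor `< w` outside `a` number
`≪ x ρ a G a / (a log w) + ρ a w ^ (18 g + 2)`. The sieve runs over the primes in `(g, w)` prime to
`a`, where the density `ρ p / p` is below `1`, so no condition on the fixed divisors is needed.
-/

set_option autoImplicit false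

noncomputable section

namespace FA.ErdosDivisor

open Polynomial Finset Filter
open FA.RichertValues
open FA.CombinatorialSieve
open scoped Polynomial

variable {f : ℤ[X]}

/-- The `n < x` with `a ∣ f n` and no further prime `< w`. -/
def roughArgs (f : ℤ[X]) (x : ℕ) (w : ℝ) (a : ℕ) : Finset ℕ :=
  (range x).filter fun n => a ∣ value f n ∧
    ∀ p ∈ range ⌈w⌉₊, p.Prime → p ∣ value f n → p ∣ a

/-- The sieving primes. -/
def roughPrimes (f : ℤ[X]) (w : ℝ) (a : ℕ) : Finset ℕ :=
  (range ⌈w⌉₊).filter fun p => p.Prime ∧ f.natDegree < p ∧ ¬ p ∣ a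

theorem mem_roughPrimes {w : ℝ} {a p : ℕ} : p ∈ roughPrimes f w a ↔
    (p : ℝ) < w ∧ p.Prime ∧ f.natDegree < p ∧ ¬ p ∣ a := by
  simp only [roughPrimes, mem_filter, mem_range, Nat.lt_ceil]

theorem exists_prod_roughPrimes_le (hirr : Irreducible f) (hd : 0 < f.natDegree) :
    ∃ C : ℝ, 0 < C ∧ ∀ w : ℝ, 4 ≤ w → ∀ a : ℕ, a ≠ 0 →
      ∏ p ∈ roughPrimes f w a, (1 - (rootMod f p : ℝ) / p) ≤
        C / Real.log w * primeWeight f a := by
  obtain ⟨B, hB⟩ := exists_abs_rootSum_le hirr hd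
  obtain ⟨g, hg⟩ : ∃ g : ℝ, g = f.natDegree := ⟨_, rfl⟩
  obtain ⟨Sm, hSm⟩ : ∃ Sm : ℝ, Sm = ∑ p ∈ range (f.natDegree + 1), (g : ℝ) / p := ⟨_, rfl⟩
  refine ⟨2 * Real.exp (B + Sm), by positivity, fun w hw a ha => ?_⟩
  obtain ⟨n, hn⟩ : ∃ n, n = ⌈w⌉₊ - 1 := ⟨_, rfl⟩
  have hce : w ≤ ((n + 1 : ℕ) : ℝ) := (Nat.le_ceil w).trans (Nat.cast_le.2 (by omega))
  have hn3 : (3 : ℝ) ≤ n := by push_cast at hce; linarith
  have hlog : Real.log w / 2 ≤ Real.log n := by
    have h2 : w ≤ (n : ℝ) ^ 2 := by push_cast at hce; nlinarith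
    have := Real.log_le_log (by linarith) h2
    rw [Real.log_pow] at this
    push_cast at this
    linarith
  have hl0 : 0 < Real.log w := Real.log_pos (by linarith)
  have hln : 0 < Real.log n := by linarith
  have hG : primeWeight f a = Real.exp (∑ p ∈ a.primeFactors, g / p) := by
    rw [primeWeight, Real.exp_sum, hg]
  have hsum : rootSumUpTo f n ≤
      Sm + ∑ p ∈ a.primeFactors, g / p + ∑ p ∈ roughPrimes f w a, (rootMod f p : ℝ) / p := by
    rw [rootSumUpTo]
    refine (sum_le_sum_of_subset_of_nonneg (t := (range (f.natDegree + 1) ∪ a.primeFactors) ∪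
      roughPrimes f w a) ?_ fun p _ _ => by positivity).trans ?_
    · intro p hp
      rw [mem_filter, mem_Icc] at hp
      by_cases h1 : p ≤ f.natDegree
      · exact mem_union_left _ (mem_union_left _ (mem_range.2 (by omega)))
      by_cases h2 : p ∣ a
      · exact mem_union_left _ (mem_union_right _ (Nat.mem_primeFactors.2 ⟨hp.2, h2, ha⟩))
      · refine mem_union_right _ (mem_roughPrimes.2 ⟨?_, hp.2, by omega, h2⟩)
        exact Nat.lt_ceil.1 (by omega)
    have hle : ∀ p : ℕ, (rootMod f p : ℝ) / p ≤ g / p ∨ ¬ p.Prime := fun p => by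
      by_cases hp : p.Prime
      · left
        gcongr
        rw [hg]
        exact Nat.cast_le.2 (rootMod_prime_le hirr hd hp)
      · exact Or.inr hp
    have hrange : ∑ p ∈ range (f.natDegree + 1), (rootMod f p : ℝ) / p ≤ Sm := by
      rw [hSm]
      refine sum_le_sum fun p hp => ?_
      rcases hle p with h | h
      · exact h
      · rcases Nat.eq_zero_or_pos p with rfl | hp0
        · simp
        gcongr
        refine (Nat.cast_le.2 ((card_filter_le _ _).trans (card_range p).le)).trans ?_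
        rw [hg]
        exact Nat.cast_le.2 (Nat.lt_succ_iff.1 (mem_range.1 hp))
    have hfac : ∑ p ∈ a.primeFactors, (rootMod f p : ℝ) / p ≤ ∑ p ∈ a.primeFactors, g / p :=
      sum_le_sum fun p hp => (hle p).resolve_right (not_not.2 (Nat.prime_of_mem_primeFactors hp))
    have hnn : ∀ s : Finset ℕ, 0 ≤ ∑ p ∈ s, (rootMod f p : ℝ) / p := fun s =>
      sum_nonneg fun p _ => by positivity
    have h1 := sum_union_inter (s₁ := range (f.natDegree + 1) ∪ a.primeFactors)
      (s₂ := roughPrimes f w a) (f := fun p => (rootMod f p : ℝ) / p)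
    have h2 := sum_union_inter (s₁ := range (f.natDegree + 1)) (s₂ := a.primeFactors)
      (f := fun p => (rootMod f p : ℝ) / p)
    have h3 := hnn ((range (f.natDegree + 1) ∪ a.primeFactors) ∩ roughPrimes f w a)
    have h4 := hnn (range (f.natDegree + 1) ∩ a.primeFactors)
    linarith
  refine (prod_le_prod (g := fun p : ℕ => Real.exp (-((rootMod f p : ℝ) / p))) (fun p hp => ?_)
    fun (p : ℕ) _ => by linarith [Real.add_one_le_exp (-((rootMod f p : ℝ) / p))]).trans ?_
  · obtain ⟨-, hpp, -, -⟩ := mem_roughPrimes.1 hp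
    rw [sub_nonneg, div_le_one (Nat.cast_pos.2 hpp.pos)]
    exact Nat.cast_le.2 ((card_filter_le _ _).trans (card_range p).le)
  rw [← Real.exp_sum, sum_neg_distrib, hG, div_mul_eq_mul_div, le_div_iff₀ hl0]
  have h := (abs_le.1 (hB n)).1
  have he : Real.exp (-∑ p ∈ roughPrimes f w a, (rootMod f p : ℝ) / p) ≤
      Real.exp (B + Sm) * Real.exp (∑ p ∈ a.primeFactors, g / p) / Real.log n := by
    rw [← Real.exp_add, ← Real.exp_log hln, ← Real.exp_sub, Real.exp_le_exp]
    linarith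
  refine (mul_le_mul he (show Real.log w ≤ 2 * Real.log n by linarith) hl0.le
    (by positivity)).trans_eq ?_
  field_simp

/-- **The sieve bound.** -/
theorem exists_card_roughArgs_le (hirr : Irreducible f) (hd : 0 < f.natDegree) :
    ∃ C : ℝ, 0 < C ∧ ∀ (x a : ℕ) (w : ℝ), 4 ≤ w → 0 < a →
      (#(roughArgs f x w a) : ℝ) ≤
        C * x * ((rootMod f a : ℝ) / a * primeWeight f a) / Real.log w +
          (rootMod f a : ℝ) * w ^ (18 * (f.natDegree : ℝ) + 2) := by
  obtain ⟨C, hC0, hC⟩ := exists_prod_roughPrimes_le hirr hd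
  obtain ⟨g, hg⟩ : ∃ g : ℝ, g = f.natDegree := ⟨_, rfl⟩
  have hg1 : 1 ≤ g := hg ▸ Nat.one_le_cast.2 hd
  obtain ⟨β, hβ⟩ : ∃ β : ℕ, β = 9 * f.natDegree + 1 := ⟨_, rfl⟩
  obtain ⟨K, hK⟩ : ∃ K : ℝ, K = Real.exp (11 * g + g ^ 2 * (g + 1)) := ⟨_, rfl⟩
  obtain ⟨A, hA⟩ : ∃ A : ℝ, A = 1 + 20 * Real.exp β * K ^ 10 * Real.exp (-(β : ℝ)) := ⟨_, rfl⟩
  have hA0 : 0 < A := by rw [hA, hK]; positivity
  refine ⟨A * C, by positivity, fun x a w hw ha => ?_⟩
  obtain ⟨T, hT⟩ : ∃ T, T = roughPrimes f w a := ⟨_, rfl⟩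
  have hTp : ∀ p ∈ T, p.Prime := fun p hp => (mem_roughPrimes.1 (hT ▸ hp)).2.1
  obtain ⟨P, hP⟩ : ∃ P, P = ∏ p ∈ T, p := ⟨_, rfl⟩
  have hPsq : Squarefree P := hP ▸ squarefree_prod_of_pairwise_isCoprime
    (fun _ ha _ hb h => Nat.coprime_iff_isRelPrime.1 ((Nat.coprime_primes
      (hTp _ ha) (hTp _ hb)).2 h)) fun _ ha => (hTp _ ha).squarefree
  have hPpf : P.primeFactors = T := hP ▸ Nat.primeFactors_prod hTp
  have hco : ∀ d ∈ P.divisors, Nat.Coprime a d := fun d hd' => by
    refine Nat.Coprime.coprime_dvd_right (Nat.dvd_of_mem_divisors hd') (hP ▸ ?_)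
    exact Nat.Coprime.prod_right fun p hp => ((Nat.Prime.coprime_iff_not_dvd (hTp p hp)).2
      (mem_roughPrimes.1 (hT ▸ hp)).2.2.2).symm
  obtain ⟨D, hD⟩ : ∃ D : ℝ, D = w ^ (β : ℝ) := ⟨_, rfl⟩
  have hstep : (#(roughArgs f x w a) : ℝ) ≤ ∑ d ∈ P.divisors,
      betaWeight D β 1 d * #((range x).filter fun n => a * d ∣ value f n) := by
    rw [roughArgs, card_filter, Nat.cast_sum]
    refine (sum_le_sum (g := fun n => if a ∣ value f n then ∑ d ∈ P.divisors,
      betaWeight D β 1 d * (if d ∣ value f n then (1 : ℝ) else 0) else 0) fun n _ => ?_).trans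
        (le_of_eq ?_)
    · by_cases han : a ∣ value f n
      · rw [if_pos han]
        refine le_trans ?_ (le_sum_betaWeight_upper hPsq D β (value f n))
        split_ifs with h hc hc
        · simp
        · exfalso
          obtain ⟨p, hpp, hpP, hpn⟩ := Nat.Prime.not_coprime_iff_dvd.1 hc
          have hpT : p ∈ T := hPpf ▸ Nat.mem_primeFactors.2 ⟨hpp, hpP, hPsq.ne_zero⟩
          obtain ⟨hpw, -, -, hpa⟩ := mem_roughPrimes.1 (hT ▸ hpT)
          exact hpa (h.2 p (mem_range.2 (Nat.lt_ceil.2 hpw)) hpp hpn)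
        · simp
        · simp
      · rw [if_neg han, if_neg fun h => han h.1, Nat.cast_zero]
    · rw [sum_congr rfl fun d _ => show
          betaWeight D β 1 d * (#((range x).filter fun n => a * d ∣ value f n) : ℝ) =
            ∑ n ∈ range x, if a * d ∣ value f n then betaWeight D β 1 d else 0 by
        rw [← sum_filter, sum_const, nsmul_eq_mul, mul_comm], sum_comm (s := P.divisors)]
      refine sum_congr rfl fun n _ => ?_
      rw [ite_sum_zero]
      refine sum_congr rfl fun d hd' => ?_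
      by_cases h1 : a ∣ value f n
      · by_cases h2 : d ∣ value f n
        · rw [if_pos h1, if_pos h2, if_pos ((hco d hd').mul_dvd_of_dvd_of_dvd h1 h2), mul_one]
        · rw [if_pos h1, if_neg h2, if_neg fun h => h2 ((dvd_mul_left d a).trans h), mul_zero]
      · rw [if_neg h1, if_neg fun h => h1 ((dvd_mul_right a d).trans h)]
  have hx : ∀ p ∈ T, 0 ≤ (rootMod f p : ℝ) / p ∧ (rootMod f p : ℝ) / p < 1 := fun p hp => by
    obtain ⟨-, hpp, hgp, -⟩ := mem_roughPrimes.1 (hT ▸ hp)
    refine ⟨by positivity, ?_⟩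
    rw [div_lt_one (Nat.cast_pos.2 hpp.pos)]
    exact Nat.cast_lt.2 ((rootMod_prime_le hirr hd hpp).trans_lt hgp)
  have hbd : ∀ p ∈ T, (rootMod f p : ℝ) / p / (1 - (rootMod f p : ℝ) / p) ≤
      g / p + g ^ 2 * (g + 1) / (p : ℝ) ^ 2 := fun p hp => by
    obtain ⟨-, hpp, hgp, -⟩ := mem_roughPrimes.1 (hT ▸ hp)
    have hp0 : (0 : ℝ) < p := Nat.cast_pos.2 hpp.pos
    have hgp' : g + 1 ≤ p := by rw [hg]; exact_mod_cast hgp
    have hρ : (rootMod f p : ℝ) ≤ g := hg ▸ Nat.cast_le.2 (rootMod_prime_le hirr hd hpp)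
    refine (div_le_div₀ (by positivity) (show (rootMod f p : ℝ) / p ≤ g / p by gcongr)
      (sub_pos.2 ((div_lt_one hp0).2 (by linarith)))
      (sub_le_sub_left (show (rootMod f p : ℝ) / p ≤ g / p by gcongr) 1)).trans ?_
    rw [one_sub_div hp0.ne', div_div_div_cancel_right₀ hp0.ne',
      div_add_div _ _ hp0.ne' (by positivity), div_le_div_iff₀ (by linarith) (by positivity)]
    have h1 : 0 ≤ (p : ℝ) * g ^ 2 * (g * (p - g - 1)) := by
      have : 0 ≤ (p : ℝ) - g - 1 := by linarith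
      positivity
    linarith
  have hdim := dimensionBound_of_le (κ := g) (B := g ^ 2 * (g + 1)) (Z := w) (by linarith)
    (by positivity) (fun p hp => ⟨hTp p hp, (mem_roughPrimes.1 (hT ▸ hp)).1⟩) hx hbd
  rw [← hK] at hdim
  have hdef := defect_le (par := 1) (β := β) (s := (β : ℝ))
    (fun p hp => ⟨(hTp p hp).two_le, (mem_roughPrimes.1 (hT ▸ hp)).1⟩) hx (by linarith)
    (by linarith) (by rw [hβ, hg]; push_cast; linarith) (by omega) (by norm_num)
    (hK ▸ Real.one_le_exp (by positivity)) le_rfl hdim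
  have htr : truncSum D β 1 T (fun p => (rootMod f p : ℝ) / p) ≤
      A * ∏ p ∈ T, (1 - (rootMod f p : ℝ) / p) := by
    rw [truncSum_eq, pow_one, neg_one_mul, sub_neg_eq_add, hA, add_mul, one_mul]
    exact add_le_add le_rfl (hD ▸ hdef)
  have hD1 : 1 ≤ D := hD ▸ Real.one_le_rpow (by linarith) (Nat.cast_nonneg β)
  refine hstep.trans ?_
  refine (sum_le_sum (g := fun d => (x : ℝ) * ((rootMod f a : ℝ) / a) *
      (betaWeight D β 1 d * ((rootMod f d : ℝ) / d)) +
      (rootMod f a : ℝ) * (if (d : ℝ) < D then D else 0)) fun d hd' => ?_).trans ?_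
  · have hd0 : 0 < d := Nat.pos_of_mem_divisors hd'
    have h := abs_le.1 (abs_card_dvd_value_sub_le f (Nat.mul_pos ha hd0) x)
    rw [rootMod_mul f (hco d hd') ha hd0, Nat.cast_mul, Nat.cast_mul] at h
    obtain ⟨N, hN⟩ : ∃ N : ℝ, N = #((range x).filter fun n => a * d ∣ value f n) := ⟨_, rfl⟩
    rw [← hN] at h ⊢
    have key : betaWeight D β 1 d * (N - (x : ℝ) * ((rootMod f a : ℝ) * rootMod f d /
        ((a : ℝ) * d))) ≤ (rootMod f a : ℝ) * (if (d : ℝ) < D then D else 0) := by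
      split_ifs with hdD
      · refine (le_abs_self _).trans ?_
        rw [abs_mul]
        refine (mul_le_of_le_one_left (abs_nonneg _) (abs_betaWeight_le _ _ _ _)).trans
          ((abs_le.2 h).trans ?_)
        refine mul_le_mul_of_nonneg_left (le_trans ?_ hdD.le) (Nat.cast_nonneg _)
        exact Nat.cast_le.2 ((card_filter_le _ _).trans (card_range d).le)
      · rw [hD, not_lt] at hdD
        rw [hD, betaWeight_eq_zero (P := P) (fun p hp => (mem_roughPrimes.1 (hT ▸ hPpf ▸ hp)).1)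
          hPsq.ne_zero (by linarith) (by omega) (by norm_num) le_rfl
          (Nat.dvd_of_mem_divisors hd') hdD, zero_mul, mul_zero]
    linear_combination key
  rw [sum_add_distrib, ← mul_sum, ← mul_sum]
  refine add_le_add ?_ ?_
  · rw [sum_betaWeight_mul hPsq D β 1 (fun d => (rootMod f d : ℝ) / d)
      (fun p => (rootMod f p : ℝ) / p) fun d hd' => ?_, hPpf]
    · refine (mul_le_mul_of_nonneg_left (htr.trans (mul_le_mul_of_nonneg_left
        (hT ▸ hC w hw a ha.ne') hA0.le)) (by positivity)).trans_eq ?_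
      ring
    · have hsq := hPsq.squarefree_of_dvd (Nat.dvd_of_mem_divisors hd')
      rw [rootMod_eq_prod f hsq.ne_zero, prod_div_distrib, Nat.cast_prod, ← Nat.cast_prod
        (f := fun p : ℕ => p), Nat.prod_primeFactors_of_squarefree hsq]
      refine congrArg (· / (d : ℝ)) (prod_congr rfl fun p hp => ?_)
      rw [(Nat.squarefree_iff_factorization_le_one hsq.ne_zero).1 hsq p |>.antisymm
        (Nat.Prime.factorization_pos_of_dvd (Nat.prime_of_mem_primeFactors hp) hsq.ne_zero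
          (Nat.dvd_of_mem_primeFactors hp)), pow_one]
  · refine mul_le_mul_of_nonneg_left ?_ (Nat.cast_nonneg _)
    rw [← sum_filter, sum_const, nsmul_eq_mul]
    have hcard : (#(P.divisors.filter fun d : ℕ => (d : ℝ) < D) : ℝ) ≤ D := by
      refine le_trans (Nat.cast_le.2 ((card_le_card (t := Ioc 0 ⌊D⌋₊) fun d hd' => ?_).trans
        (le_of_eq (by rw [Nat.card_Ioc, Nat.sub_zero])))) (Nat.floor_le (by linarith))
      rw [mem_filter] at hd'
      exact mem_Ioc.2 ⟨Nat.pos_of_mem_divisors hd'.1, Nat.le_floor hd'.2.le⟩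
    refine (mul_le_mul_of_nonneg_right hcard (by linarith)).trans (le_of_eq ?_)
    rw [hD, ← Real.rpow_add (by linarith), hβ]
    push_cast
    ring_nf

end FA.ErdosDivisor
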