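import Mathlib.Data.Nat.Factorization.Basic
import Mathlib.NumberTheory.ArithmeticFunction.Misc
import Mathlib.Analysis.SpecialFunctions.Pow.Real
import Mathlib.Analysis.SpecialFunctions.Log.Base

/-!
# Erdős's splitting of an integer

`v` is `a b` with `a` the part of `v` below the first prime at which the partial products exceed
`z`, so `a ≤ z` and `b` has no small prime unless a large power of one divides `v`.
-/

set_option autoImplicit false

noncomputable section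

namespace FA.ErdosDivisor

open Finset

/-- The part of `v` made of primes below `t`. -/
def smoothPart (v t : ℕ) : ℕ := ∏ p ∈ v.primeFactors.filter (· < t), p ^ v.factorization p

/-- The part of `v` made of primes from `t` on. -/
def roughPart (v t : ℕ) : ℕ :=
  ∏ p ∈ v.primeFactors.filter (fun p => ¬ p < t), p ^ v.factorization p

theorem smoothPart_mul_roughPart {v : ℕ} (hv : v ≠ 0) (t : ℕ) :
    smoothPart v t * roughPart v t = v := by
  rw [smoothPart, roughPart, prod_filter_mul_prod_filter_not,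
    ← Nat.prod_primeFactors_pow_factorization hv]

theorem smoothPart_pos (v t : ℕ) : 0 < smoothPart v t :=
  prod_pos fun _ hp => pow_pos (Nat.prime_of_mem_primeFactors (mem_filter.1 hp).1).pos _

theorem roughPart_pos (v t : ℕ) : 0 < roughPart v t :=
  prod_pos fun _ hp => pow_pos (Nat.prime_of_mem_primeFactors (mem_filter.1 hp).1).pos _

theorem dvd_smoothPart {v t p : ℕ} (hv : v ≠ 0) (hp : p.Prime) (hd : p ∣ v) (ht : p < t) :
    p ∣ smoothPart v t :=
  (dvd_pow_self p (hp.factorization_pos_of_dvd hv hd).ne').trans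
    (dvd_prod_of_mem (fun p => p ^ v.factorization p)
      (mem_filter.2 ⟨Nat.mem_primeFactors.2 ⟨hp, hd, hv⟩, ht⟩))

theorem lt_of_dvd_smoothPart {v t p : ℕ} (hp : p.Prime) (hd : p ∣ smoothPart v t) : p < t := by
  obtain ⟨q, hq, hpq⟩ := (hp.prime.dvd_finsetProd_iff _).1 hd
  rw [mem_filter] at hq
  rw [(Nat.prime_dvd_prime_iff_eq hp (Nat.prime_of_mem_primeFactors hq.1)).1
    (hp.dvd_of_dvd_pow hpq)]
  exact hq.2

theorem le_of_dvd_roughPart {v t p : ℕ} (hp : p.Prime) (hd : p ∣ roughPart v t) : t ≤ p := by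
  obtain ⟨q, hq, hpq⟩ := (hp.prime.dvd_finsetProd_iff _).1 hd
  rw [mem_filter] at hq
  rw [(Nat.prime_dvd_prime_iff_eq hp (Nat.prime_of_mem_primeFactors hq.1)).1
    (hp.dvd_of_dvd_pow hpq)]
  exact not_lt.1 hq.2

theorem coprime_smoothPart_roughPart (v t : ℕ) : (smoothPart v t).Coprime (roughPart v t) :=
  Nat.coprime_of_dvd fun _ hk h1 h2 =>
    absurd (lt_of_dvd_smoothPart hk h1) (not_lt.2 (le_of_dvd_roughPart hk h2))

theorem smoothPart_succ (v q : ℕ) :
    smoothPart v (q + 1) =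
      smoothPart v q * if q ∈ v.primeFactors then q ^ v.factorization q else 1 := by
  rw [smoothPart, smoothPart]
  split_ifs with h
  · rw [mul_comm, ← prod_insert (f := fun p => p ^ v.factorization p)
      (show q ∉ v.primeFactors.filter (· < q) by simp)]
    refine prod_congr ?_ fun _ _ => rfl
    ext p
    simp only [mem_filter, mem_insert]
    constructor
    · rintro ⟨hp, hlt⟩
      rcases (show p = q ∨ p < q by omega) with e | e
      · exact Or.inl e
      · exact Or.inr ⟨hp, e⟩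
    · rintro (rfl | ⟨hp, hlt⟩)
      · exact ⟨h, by omega⟩
      · exact ⟨hp, by omega⟩
  · rw [mul_one]
    refine prod_congr (filter_congr fun p hp => ?_) fun _ _ => rfl
    have : p ≠ q := fun e => h (e ▸ hp)
    omega

theorem exists_split {v : ℕ} (hv : v ≠ 0) {z : ℝ} (hz : 1 ≤ z) :
    (v : ℝ) ≤ z ∨ ∃ q : ℕ, q.Prime ∧ q ∣ v ∧ (smoothPart v q : ℝ) ≤ z ∧
      z < (smoothPart v q : ℝ) * (q : ℝ) ^ v.factorization q := by
  classical
  rcases le_or_gt (v : ℝ) z with h | h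
  · exact Or.inl h
  refine Or.inr ?_
  have hex : ∃ t, z < (smoothPart v (t + 1) : ℝ) := ⟨v, by
    rwa [smoothPart, filter_true_of_mem fun p hp => ?_,
      ← Nat.prod_primeFactors_pow_factorization hv]
    exact Nat.lt_succ_of_le (Nat.le_of_mem_primeFactors hp)⟩
  obtain ⟨q, hq⟩ : ∃ q, q = Nat.find hex := ⟨_, rfl⟩
  have hbig : z < (smoothPart v (q + 1) : ℝ) := hq ▸ Nat.find_spec hex
  have hsmall : (smoothPart v q : ℝ) ≤ z := by
    rcases Nat.eq_zero_or_pos q with h0 | h0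
    · rw [h0, smoothPart, filter_false_of_mem fun p _ => Nat.not_lt_zero p, prod_empty,
        Nat.cast_one]
      exact hz
    · have := Nat.find_min hex (show q - 1 < Nat.find hex by omega)
      rwa [Nat.sub_add_cancel h0, not_lt] at this
  have hmem : q ∈ v.primeFactors := by
    by_contra hc
    rw [smoothPart_succ, if_neg hc, mul_one] at hbig
    linarith
  rw [smoothPart_succ, if_pos hmem, Nat.cast_mul, Nat.cast_pow] at hbig
  exact ⟨q, Nat.prime_of_mem_primeFactors hmem, Nat.dvd_of_mem_primeFactors hmem, hsmall, hbig⟩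

/-- A number with all primes `≥ w` and below `w ^ (k + 1)` has at most `2 ^ k` divisors. -/
theorem card_divisors_le_two_pow {b k : ℕ} (hb : b ≠ 0) {w : ℝ} (hw : 1 < w)
    (hp : ∀ p ∈ b.primeFactors, w ≤ p) (hk : (b : ℝ) < w ^ (k + 1)) : #b.divisors ≤ 2 ^ k := by
  obtain ⟨S, hS⟩ : ∃ S, S = ∑ p ∈ b.primeFactors, b.factorization p := ⟨_, rfl⟩
  have h1 : w ^ S ≤ (b : ℝ) := by
    conv_rhs => rw [Nat.prod_primeFactors_pow_factorization hb]
    rw [hS, ← prod_pow_eq_pow_sum, Nat.cast_prod]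
    refine prod_le_prod (fun p _ => pow_nonneg (by linarith) _) fun p hpb => ?_
    rw [Nat.cast_pow]
    exact pow_le_pow_left₀ (by linarith) (hp p hpb) _
  have hSk : S ≤ k := Nat.lt_succ_iff.1 ((pow_lt_pow_iff_right₀ hw).1 (h1.trans_lt hk))
  calc #b.divisors = ∏ p ∈ b.primeFactors, (b.factorization p + 1) := Nat.card_divisors hb
    _ ≤ ∏ p ∈ b.primeFactors, 2 ^ b.factorization p :=
        prod_le_prod' fun p _ => Nat.lt_two_pow_self
    _ = 2 ^ S := by rw [prod_pow_eq_pow_sum, hS]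
    _ ≤ 2 ^ k := Nat.pow_le_pow_right two_pos hSk

/-- `z ^ (1/4)`, `√z`, and the small prime powers in `(√z, z ^ (3/4)]`. -/
def midPowers (z : ℝ) : Finset ℕ :=
  ((((range ⌈z ^ (1 / 4 : ℝ)⌉₊).filter Nat.Prime) ×ˢ range (⌊Real.logb 2 z⌋₊ + 1)).image
    fun x => x.1 ^ x.2).filter fun m : ℕ => Real.sqrt z < m ∧ (m : ℝ) ≤ z ^ (3 / 4 : ℝ)

/-- **The four classes.** -/
theorem classify {v : ℕ} (hv : v ≠ 0) {z : ℝ} (hz : 1 < z) {K Q0 : ℕ} (hQ0 : 1 < Q0)
    (hvz : (v : ℝ) ≤ z ^ K) :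
    (∃ a : ℕ, 0 < a ∧ (a : ℝ) ≤ z ∧ a ∣ v ∧
      (∀ p : ℕ, p.Prime → (p : ℝ) < z ^ (1 / 4 : ℝ) → p ∣ v → p ∣ a) ∧
      #v.divisors ≤ #a.divisors * 2 ^ (4 * K)) ∨
    (∃ m ∈ midPowers z, m ∣ v) ∨
    (∃ r a : ℕ, 1 ≤ r ∧ (r : ℝ) * Real.log Q0 ≤ Real.log z ∧ (a : ℝ) ≤ z ∧
      Real.sqrt z < a ∧ (∀ p ∈ a.primeFactors, (p : ℝ) ≤ z ^ ((1 : ℝ) / r)) ∧ a ∣ v ∧
      (∀ p : ℕ, p.Prime → (p : ℝ) < z ^ ((1 : ℝ) / (r + 1)) → p ∣ v → p ∣ a) ∧
      #v.divisors ≤ #a.divisors * 2 ^ (K * (r + 1))) ∨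
    (∃ a : ℕ, (a : ℝ) ≤ z ∧ Real.sqrt z < a ∧ (∀ p ∈ a.primeFactors, p ≤ Q0) ∧ a ∣ v) := by
  rcases exists_split hv hz.le with hle | ⟨q, hq, hqv, hsm, hbig⟩
  · exact Or.inl ⟨v, Nat.pos_of_ne_zero hv, hle, dvd_rfl, fun p _ _ h => h,
      Nat.le_mul_of_pos_right _ (pow_pos two_pos _)⟩
  have hz0 : 0 < z := by linarith
  obtain ⟨a, ha⟩ : ∃ a, a = smoothPart v q := ⟨_, rfl⟩
  obtain ⟨b, hb⟩ : ∃ b, b = roughPart v q := ⟨_, rfl⟩
  rw [← ha] at hsm hbig
  have hab : a * b = v := ha ▸ hb ▸ smoothPart_mul_roughPart hv q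
  have hav : a ∣ v := ⟨b, hab.symm⟩
  have ha0 : 0 < a := ha ▸ smoothPart_pos v q
  have hbb : ∀ p ∈ b.primeFactors, (q : ℝ) ≤ p := fun p hp => Nat.cast_le.2
    (le_of_dvd_roughPart (Nat.prime_of_mem_primeFactors hp) (hb ▸ Nat.dvd_of_mem_primeFactors hp))
  have hbv : (b : ℝ) ≤ z ^ K := le_trans (Nat.cast_le.2 (Nat.le_of_dvd (Nat.pos_of_ne_zero hv)
    ⟨a, by rw [mul_comm]; exact hab.symm⟩)) hvz
  have hfree : ∀ w : ℝ, w ≤ q → ∀ p : ℕ, p.Prime → (p : ℝ) < w → p ∣ v → p ∣ a :=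
    fun w hw p hp hpw hpv => ha ▸ dvd_smoothPart hv hp hpv (Nat.cast_lt.1 (hpw.trans_le hw))
  have hdiv : ∀ k : ℕ, #b.divisors ≤ 2 ^ k → #v.divisors ≤ #a.divisors * 2 ^ k := fun k hk => by
    rw [← hab, (ha ▸ hb ▸ coprime_smoothPart_roughPart v q : a.Coprime b).card_divisors_mul]
    exact Nat.mul_le_mul_left _ hk
  have hq2 : (2 : ℝ) ≤ q := Nat.ofNat_le_cast.2 hq.two_le
  obtain ⟨u, hu⟩ : ∃ u : ℝ, u = z ^ (1 / 4 : ℝ) := ⟨_, rfl⟩
  have hu1 : 1 < u := hu ▸ Real.one_lt_rpow hz (by norm_num)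
  rcases le_or_gt u q with hqu | hqu
  · refine Or.inl ⟨a, ha0, hsm, hav, hu ▸ hfree u hqu, hdiv _ (card_divisors_le_two_pow
      (hb ▸ (roughPart_pos v q).ne') hu1 (fun p hp => hqu.trans (hbb p hp)) ?_)⟩
    refine hbv.trans_lt ((le_of_eq ?_).trans_lt (pow_lt_pow_right₀ hu1 (Nat.lt_succ_self _)))
    rw [pow_mul, hu, ← Real.rpow_natCast (z ^ (1 / 4 : ℝ)) 4, ← Real.rpow_mul hz0.le]
    norm_num
  refine Or.inr ?_
  rcases le_or_gt (a : ℝ) (Real.sqrt z) with haz | haz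
  · refine Or.inl ?_
    have hqe : Real.sqrt z < (q : ℝ) ^ v.factorization q := by
      by_contra! hc
      have := mul_le_mul haz hc (by positivity) (Real.sqrt_nonneg z)
      rw [Real.mul_self_sqrt hz0.le] at this
      linarith
    classical
    have hex : ∃ j : ℕ, Real.sqrt z < (q : ℝ) ^ j := ⟨_, hqe⟩
    obtain ⟨j, hj⟩ : ∃ j, j = Nat.find hex := ⟨_, rfl⟩
    have hjb : Real.sqrt z < (q : ℝ) ^ j := hj ▸ Nat.find_spec hex
    have hje : j ≤ v.factorization q := hj ▸ Nat.find_le hqe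
    have hj0 : 0 < j := by
      by_contra h0
      rw [Nat.eq_zero_of_not_pos h0, pow_zero] at hjb
      linarith [Real.one_le_sqrt.2 hz.le]
    have hjs : (q : ℝ) ^ (j - 1) ≤ Real.sqrt z :=
      not_lt.1 (Nat.find_min hex (show j - 1 < Nat.find hex by omega))
    have hjz : (q : ℝ) ^ j ≤ z ^ (3 / 4 : ℝ) := by
      rw [show j = j - 1 + 1 by omega, pow_succ]
      refine (mul_le_mul hjs hqu.le (by linarith) (Real.sqrt_nonneg z)).trans_eq ?_
      rw [hu, Real.sqrt_eq_rpow, ← Real.rpow_add hz0]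
      norm_num
    refine ⟨q ^ j, ?_, (pow_dvd_pow q hje).trans (Nat.ordProj_dvd v q)⟩
    rw [midPowers, mem_filter, mem_image, Nat.cast_pow]
    refine ⟨⟨(q, j), mem_product.2 ⟨mem_filter.2 ⟨mem_range.2 (Nat.lt_ceil.2 (hu ▸ hqu)), hq⟩,
      mem_range.2 (Nat.lt_succ_of_le (Nat.le_floor ?_))⟩, rfl⟩, hjb, hjz⟩
    rw [Real.le_logb_iff_rpow_le one_lt_two hz0, Real.rpow_natCast]
    exact (pow_le_pow_left₀ zero_le_two hq2 j).trans
      (hjz.trans ((Real.rpow_le_rpow_of_exponent_le hz.le (by norm_num)).trans_eq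
        (Real.rpow_one z)))
  refine Or.inr ?_
  rcases le_or_gt Q0 q with hQq | hQq
  · refine Or.inl ?_
    have hlq : 0 < Real.log q := Real.log_pos (by linarith)
    have hlz : 0 < Real.log z := Real.log_pos hz
    have hqz : (q : ℝ) < z := hqu.trans_le (hu ▸ (Real.rpow_le_rpow_of_exponent_le hz.le
      (by norm_num)).trans_eq (Real.rpow_one z))
    obtain ⟨r, hr⟩ : ∃ r, r = ⌊Real.log z / Real.log q⌋₊ := ⟨_, rfl⟩
    have hr1 : 1 ≤ r := hr ▸ Nat.le_floor (by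
      rw [Nat.cast_one, one_le_div hlq]
      exact Real.log_le_log (by linarith) hqz.le)
    have hrle : (r : ℝ) * Real.log q ≤ Real.log z := by
      rw [← le_div_iff₀ hlq, hr]
      exact Nat.floor_le (by positivity)
    have hrlt : Real.log z < ((r : ℝ) + 1) * Real.log q := by
      rw [← div_lt_iff₀ hlq, hr]
      exact Nat.lt_floor_add_one _
    have hr0 : (0 : ℝ) < r := Nat.cast_pos.2 hr1
    have hqy : (q : ℝ) ≤ z ^ ((1 : ℝ) / r) := by
      rw [Real.le_rpow_iff_log_le (by linarith) hz0, one_div_mul_eq_div, le_div_iff₀ hr0]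
      linarith
    have hwq : z ^ ((1 : ℝ) / (r + 1)) < q := by
      rw [Real.rpow_lt_iff_lt_log hz0 (by linarith), one_div_mul_eq_div,
        div_lt_iff₀ (by positivity)]
      linarith
    have hw1 : 1 < z ^ ((1 : ℝ) / (r + 1)) := Real.one_lt_rpow hz (by positivity)
    refine ⟨r, a, hr1, le_trans (mul_le_mul_of_nonneg_left (Real.log_le_log
      (Nat.cast_pos.2 (by omega)) (Nat.cast_le.2 hQq)) hr0.le) hrle, hsm, haz, fun p hp => ?_,
      hav, hfree _ hwq.le, hdiv _ (card_divisors_le_two_pow (hb ▸ (roughPart_pos v q).ne') hw1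
        (fun p hp => hwq.le.trans (hbb p hp)) ?_)⟩
    · exact le_trans (Nat.cast_le.2 (lt_of_dvd_smoothPart (Nat.prime_of_mem_primeFactors hp)
        (ha ▸ Nat.dvd_of_mem_primeFactors hp)).le) hqy
    · refine hbv.trans_lt ((le_of_eq ?_).trans_lt (pow_lt_pow_right₀ hw1 (Nat.lt_succ_self _)))
      rw [mul_comm K, pow_mul, ← Real.rpow_natCast (z ^ ((1 : ℝ) / (r + 1))) (r + 1),
        ← Real.rpow_mul hz0.le]
      push_cast
      rw [one_div_mul_cancel (by positivity), Real.rpow_one]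
  · refine Or.inr ⟨a, hsm, haz, fun p hp => ?_, hav⟩
    have := lt_of_dvd_smoothPart (Nat.prime_of_mem_primeFactors hp)
      (ha ▸ Nat.dvd_of_mem_primeFactors hp)
    omega

end FA.ErdosDivisor
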