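import Fermat.Agent.ErdosDivisor.Sieve
import Fermat.Agent.ErdosDivisor.Split
import Fermat.Agent.Forms3.RepresentationBound
import Fermat.Agent.RichertValues.Main

/-!
# The upper bound `∑_{n ≤ x} τ (f n) ≪ x log x`

With `z = x ^ θ` the sieve handles the values whose small part `a` is at most `z ^ (1/2)` or has no
small largest prime; Rankin's trick makes the rest `≪ e ^ (-r) x log x` at `q ≈ z ^ (1/r)`.
-/

set_option autoImplicit false

noncomputable section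

namespace FA.ErdosDivisor

open Polynomial Finset Filter
open FA.RichertValues
open scoped Polynomial

variable {f : ℤ[X]}

/-- The `n < x` with `d ∣ f n`. -/
def multArgs (f : ℤ[X]) (x d : ℕ) : Finset ℕ := (range x).filter fun n => d ∣ value f n

theorem card_multArgs_le (f : ℤ[X]) {x d : ℕ} (hd : 0 < d) (hdx : d ≤ x) :
    (#(multArgs f x d) : ℝ) ≤ 2 * x * ((rootMod f d : ℝ) / d) := by
  have h := (abs_le.1 (abs_card_dvd_value_sub_le f hd x)).2
  have h2 : (rootMod f d : ℝ) ≤ (x : ℝ) * ((rootMod f d : ℝ) / d) := by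
    rw [← mul_div_assoc, le_div_iff₀ (Nat.cast_pos.2 hd), mul_comm]
    gcongr
  rw [multArgs]
  linarith

/-- The class with no prime below `z ^ (1/4)` outside `a ≤ z`. -/
def sumOne (f : ℤ[X]) (x : ℕ) (z : ℝ) : ℝ :=
  ∑ a ∈ Icc 1 ⌊z⌋₊, (#a.divisors : ℝ) * #(roughArgs f x (z ^ (1 / 4 : ℝ)) a)

theorem exists_sumOne_le (hirr : Irreducible f) (hd : 0 < f.natDegree) :
    ∃ C : ℝ, 0 < C ∧ ∀ (x : ℕ) (z : ℝ), 256 ≤ z → sumOne f x z ≤
      C * x * Real.log z + z ^ (18 * (f.natDegree : ℝ) + 5) := by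
  obtain ⟨C1, hC1, hsieve⟩ := exists_card_roughArgs_le hirr hd
  obtain ⟨C2, hC2, hsum⟩ := exists_smooth_sum_le hirr hd 0
  refine ⟨4 * C1 * C2, by positivity, fun x z hz => ?_⟩
  obtain ⟨w, hw⟩ : ∃ w : ℝ, w = z ^ (1 / 4 : ℝ) := ⟨_, rfl⟩
  obtain ⟨E, hE⟩ : ∃ E : ℝ, E = 18 * (f.natDegree : ℝ) + 2 := ⟨_, rfl⟩
  have hz0 : 0 < z := by linarith
  have hw4 : 4 ≤ w := by
    calc (4 : ℝ) = (256 : ℝ) ^ (1 / 4 : ℝ) := by
          rw [show (256 : ℝ) = 4 ^ (4 : ℝ) by norm_num, ← Real.rpow_mul (by norm_num)]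
          norm_num
      _ ≤ w := hw ▸ Real.rpow_le_rpow (by norm_num) hz (by norm_num)
  have hlw : Real.log w = Real.log z / 4 := by rw [hw, Real.log_rpow hz0]; ring
  have hlz : 0 < Real.log z := Real.log_pos (by linarith)
  obtain ⟨M, hM⟩ : ∃ M, M = ⌊z⌋₊ := ⟨_, rfl⟩
  have hMz : (M : ℝ) ≤ z := hM ▸ Nat.floor_le hz0.le
  have hM2 : 2 ≤ M := hM ▸ Nat.le_floor (by push_cast; linarith)
  have hwE : w ^ E ≤ z ^ E := by
    refine Real.rpow_le_rpow (by linarith) ?_ (by rw [hE]; positivity)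
    rw [hw]
    exact (Real.rpow_le_rpow_of_exponent_le (by linarith) (by norm_num)).trans_eq (Real.rpow_one z)
  rw [sumOne, ← hw, ← hM]
  refine (sum_le_sum (g := fun a : ℕ => C1 * x / Real.log w * divTerm f a + z * z * z ^ E)
    fun a ha => ?_).trans ?_
  · rw [mem_Icc] at ha
    refine (mul_le_mul_of_nonneg_left (hsieve x a w hw4 ha.1) (Nat.cast_nonneg _)).trans ?_
    rw [mul_add, ← hE]
    refine add_le_add (le_of_eq (by rw [divTerm]; ring)) ?_
    have haz : (a : ℝ) ≤ z := (Nat.cast_le.2 ha.2).trans hMz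
    rw [← mul_assoc]
    refine mul_le_mul (mul_le_mul ((Nat.cast_le.2 (Nat.card_divisors_le_self a)).trans haz) ?_
      (Nat.cast_nonneg _) hz0.le) hwE (by positivity) (by positivity)
    exact (Nat.cast_le.2 ((card_filter_le _ _).trans (card_range a).le)).trans haz
  · rw [sum_add_distrib, ← mul_sum, sum_const, nsmul_eq_mul, Nat.card_Icc, Nat.add_sub_cancel]
    refine add_le_add ?_ ?_
    · have h := hsum M hM2 0 le_rfl (by norm_num) (by simp) (Icc 1 M) fun a ha => by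
        rw [mem_Icc] at ha
        exact ⟨by omega, fun p hp => (Nat.le_of_mem_primeFactors hp).trans ha.2⟩
      simp only [Real.rpow_zero, mul_one] at h
      have hlM : Real.log M ≤ Real.log z := Real.log_le_log (by positivity) hMz
      refine (mul_le_mul_of_nonneg_left (h.trans (mul_le_mul_of_nonneg_left
        (pow_le_pow_left₀ (Real.log_natCast_nonneg M) hlM 2) hC2.le))
        (by rw [hlw]; positivity)).trans_eq ?_
      rw [hlw]
      field_simp
    · calc (M : ℝ) * (z * z * z ^ E) ≤ z * (z * z * z ^ E) := by gcongr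
        _ = z ^ (18 * (f.natDegree : ℝ) + 5) := by
            rw [show 18 * (f.natDegree : ℝ) + 5 = ((3 : ℕ) : ℝ) + E by rw [hE]; push_cast; ring,
              Real.rpow_add hz0, Real.rpow_natCast]
            ring

/-- The smooth numbers in `(√z, z]`. -/
def smoothRange (z y : ℝ) : Finset ℕ :=
  (Icc 1 ⌊z⌋₊).filter fun a : ℕ => Real.sqrt z < a ∧ ∀ p ∈ a.primeFactors, (p : ℝ) ≤ y

/-- The class of `q ≈ z ^ (1/r)`. -/
def sumThree (f : ℤ[X]) (x : ℕ) (z : ℝ) (K Q0 : ℕ) : ℝ :=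
  ∑ r ∈ Icc 1 ⌊Real.log z / Real.log Q0⌋₊, ∑ a ∈ smoothRange z (z ^ ((1 : ℝ) / r)),
    (2 : ℝ) ^ (K * (r + 1)) * ((#a.divisors : ℝ) * #(roughArgs f x (z ^ ((1 : ℝ) / (r + 1))) a))

theorem exists_sumThree_le (hirr : Irreducible f) (hd : 0 < f.natDegree) (K : ℕ) :
    ∃ C : ℝ, ∃ Q0 : ℕ, 1 < Q0 ∧ ∀ (x : ℕ) (z : ℝ), 256 ≤ z → sumThree f x z K Q0 ≤
      C * x * Real.log z + C * z ^ (18 * (f.natDegree : ℝ) + 7) := by
  obtain ⟨A, hA⟩ : ∃ A : ℝ, A = 2 * (K * Real.log 2 + 1) := ⟨_, rfl⟩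
  have hl2 : 0 < Real.log 2 := Real.log_pos one_lt_two
  have hA0 : 0 < A := by rw [hA]; positivity
  obtain ⟨C1, hC1, hsieve⟩ := exists_card_roughArgs_le hirr hd
  obtain ⟨C2, hC2, hsum⟩ := exists_smooth_sum_le hirr hd A
  obtain ⟨Q0, hQ⟩ : ∃ Q0 : ℕ, Q0 = ⌈Real.exp (4 * A + K * Real.log 2 + 4)⌉₊ := ⟨_, rfl⟩
  have hQR : Real.exp (4 * A + K * Real.log 2 + 4) ≤ (Q0 : ℝ) := hQ ▸ Nat.le_ceil _
  have hKl : 0 ≤ (K : ℝ) * Real.log 2 := by positivity
  have hQ1 : (1 : ℝ) < Q0 := lt_of_lt_of_le (Real.one_lt_exp_iff.2 (by linarith)) hQR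
  have hlQ : 4 * A + K * Real.log 2 + 4 ≤ Real.log Q0 :=
    (Real.le_log_iff_exp_le (by linarith)).2 hQR
  obtain ⟨S, hS⟩ : ∃ S : ℝ, S = ∑' r : ℕ, Real.exp (-1) ^ r := ⟨_, rfl⟩
  have hS0 : 0 ≤ S := hS ▸ tsum_nonneg fun r => pow_nonneg (Real.exp_pos _).le r
  refine ⟨max (2 * (2 : ℝ) ^ K * C1 * C2 * S) (2 ^ K), Q0, Nat.one_lt_cast.1 hQ1,
    fun x z hz => ?_⟩
  obtain ⟨E, hE⟩ : ∃ E : ℝ, E = 18 * (f.natDegree : ℝ) + 2 := ⟨_, rfl⟩
  have hz0 : 0 < z := by linarith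
  have hlz : 0 < Real.log z := Real.log_pos (by linarith)
  have hlQ0 : 0 < Real.log Q0 := by linarith
  obtain ⟨N, hN⟩ : ∃ N, N = ⌊Real.log z / Real.log Q0⌋₊ := ⟨_, rfl⟩
  have hNle : (N : ℝ) * Real.log Q0 ≤ Real.log z := by
    rw [← le_div_iff₀ hlQ0, hN]
    exact Nat.floor_le (by positivity)
  have hpow : ∀ r : ℕ, r ≤ N → (2 : ℝ) ^ (K * r) ≤ z := fun r hr => by
    rw [← Real.log_le_log_iff (by positivity) hz0, Real.log_pow, Nat.cast_mul]
    have h1 : (r : ℝ) * (K * Real.log 2) ≤ (r : ℝ) * Real.log Q0 :=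
      mul_le_mul_of_nonneg_left (by linarith) (Nat.cast_nonneg r)
    have h2 : (r : ℝ) * Real.log Q0 ≤ (N : ℝ) * Real.log Q0 := by gcongr
    linarith
  rw [sumThree, ← hN]
  refine (sum_le_sum (g := fun r : ℕ => 2 * (2 : ℝ) ^ K * C1 * C2 * x * Real.log z *
    Real.exp (-1) ^ r + (2 : ℝ) ^ K * z ^ (18 * (f.natDegree : ℝ) + 6)) fun r hr => ?_).trans ?_
  · rw [mem_Icc] at hr
    have hr0 : (0 : ℝ) < r := Nat.cast_pos.2 hr.1
    have hrR : (1 : ℝ) ≤ r := Nat.one_le_cast.2 hr.1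
    have hrQ : (r : ℝ) * Real.log Q0 ≤ Real.log z := le_trans (by gcongr; exact hr.2) hNle
    obtain ⟨w, hw⟩ : ∃ w : ℝ, w = z ^ ((1 : ℝ) / (r + 1)) := ⟨_, rfl⟩
    obtain ⟨y, hy⟩ : ∃ y : ℝ, y = z ^ ((1 : ℝ) / r) := ⟨_, rfl⟩
    obtain ⟨α, hα⟩ : ∃ α : ℝ, α = A * r / Real.log z := ⟨_, rfl⟩
    have hlw : Real.log w = Real.log z / (r + 1) := by rw [hw, Real.log_rpow hz0]; ring
    have hly : Real.log y = Real.log z / r := by rw [hy, Real.log_rpow hz0]; ring
    have hw4 : 4 ≤ w := by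
      rw [← Real.log_le_log_iff (by norm_num) (hw ▸ Real.rpow_pos_of_pos hz0 _), hlw,
        le_div_iff₀ (by positivity)]
      have hl4 : Real.log 4 ≤ 2 := by
        rw [show (4 : ℝ) = 2 * 2 by norm_num, Real.log_mul (by norm_num) (by norm_num)]
        linarith [Real.log_two_lt_d9]
      calc Real.log 4 * ((r : ℝ) + 1) ≤ 2 * (2 * r) := by gcongr; linarith
        _ ≤ (r : ℝ) * Real.log Q0 := by nlinarith
        _ ≤ Real.log z := hrQ
    have hy2 : 2 ≤ y := by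
      refine le_trans (by linarith : (2 : ℝ) ≤ w) ?_
      rw [hw, hy]
      exact Real.rpow_le_rpow_of_exponent_le (by linarith)
        (one_div_le_one_div_of_le hr0 (by linarith))
    obtain ⟨Y, hY⟩ : ∃ Y, Y = ⌊y⌋₊ := ⟨_, rfl⟩
    have hY2 : 2 ≤ Y := hY ▸ Nat.le_floor (by exact_mod_cast hy2)
    have hYy : (Y : ℝ) ≤ y := hY ▸ Nat.floor_le (by linarith)
    have hlY : Real.log Y ≤ Real.log z / r := hly ▸ Real.log_le_log (by positivity) hYy
    have hα0 : 0 ≤ α := hα ▸ by positivity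
    have hα4 : α ≤ 1 / 4 := by
      rw [hα, div_le_iff₀ hlz]
      nlinarith
    have hαY : α * Real.log Y ≤ A := by
      refine (mul_le_mul_of_nonneg_left hlY hα0).trans_eq ?_
      rw [hα]
      field_simp
    have hsmooth : ∀ a ∈ smoothRange z y, a ≠ 0 ∧ ∀ p ∈ a.primeFactors, p ≤ Y := fun a ha => by
      rw [smoothRange, mem_filter, mem_Icc] at ha
      exact ⟨by omega, fun p hp => hY ▸ Nat.le_floor (ha.2.2 p hp)⟩
    have hgain : ∀ a ∈ smoothRange z y, Real.exp (A * r / 2) ≤ (a : ℝ) ^ α := fun a ha => by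
      rw [smoothRange, mem_filter] at ha
      refine le_trans ?_ (Real.rpow_le_rpow (Real.sqrt_nonneg z) ha.2.1.le hα0)
      rw [Real.sqrt_eq_rpow, ← Real.rpow_mul hz0.le, Real.rpow_def_of_pos hz0]
      refine Real.exp_le_exp.2 (le_of_eq ?_)
      rw [hα]
      field_simp
    have hdt : ∑ a ∈ smoothRange z y, divTerm f a ≤
        Real.exp (-(A * r / 2)) * (C2 * (Real.log z / r) ^ 2) := by
      rw [Real.exp_neg, inv_mul_eq_div, le_div_iff₀ (Real.exp_pos _), sum_mul]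
      refine (sum_le_sum fun a ha => mul_le_mul_of_nonneg_left (hgain a ha)
        (divTerm_nonneg f a)).trans ((hsum Y hY2 α hα0 hα4 hαY _ hsmooth).trans ?_)
      exact mul_le_mul_of_nonneg_left (pow_le_pow_left₀ (Real.log_natCast_nonneg Y) hlY 2) hC2.le
    have hwz : w ≤ z := hw ▸ (Real.rpow_le_rpow_of_exponent_le (by linarith)
      (by rw [div_le_one (by positivity)]; linarith)).trans_eq (Real.rpow_one z)
    rw [← hw, ← hy, ← mul_sum]
    refine (mul_le_mul_of_nonneg_left ((sum_le_sum (g := fun a : ℕ =>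
      C1 * x / Real.log w * divTerm f a + z * z * z ^ E) fun a ha => ?_).trans_eq
        (by rw [sum_add_distrib, ← mul_sum, sum_const, nsmul_eq_mul])) (by positivity)).trans ?_
    · have ha1 := hsmooth a ha
      rw [smoothRange, mem_filter, mem_Icc] at ha
      refine (mul_le_mul_of_nonneg_left (hsieve x a w hw4 ha.1.1) (Nat.cast_nonneg _)).trans ?_
      rw [mul_add, ← hE]
      refine add_le_add (le_of_eq (by rw [divTerm]; ring)) ?_
      have haz : (a : ℝ) ≤ z := (Nat.cast_le.2 ha.1.2).trans (Nat.floor_le hz0.le)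
      rw [← mul_assoc]
      refine mul_le_mul (mul_le_mul ((Nat.cast_le.2 (Nat.card_divisors_le_self a)).trans haz) ?_
        (Nat.cast_nonneg _) hz0.le) (Real.rpow_le_rpow (by linarith) hwz (by rw [hE]; positivity))
        (Real.rpow_nonneg (by linarith) E) (by positivity)
      exact (Nat.cast_le.2 ((card_filter_le _ _).trans (card_range a).le)).trans haz
    rw [mul_add, show K * (r + 1) = K + K * r by ring, pow_add]
    refine add_le_add ?_ ?_
    · have he : (2 : ℝ) ^ (K * r) * Real.exp (-(A * r / 2)) = Real.exp (-1) ^ r := by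
        rw [show (2 : ℝ) ^ (K * r) = Real.exp (((K * r : ℕ) : ℝ) * Real.log 2) by
          rw [Real.exp_nat_mul, Real.exp_log two_pos], ← Real.exp_add, ← Real.exp_nat_mul, hA]
        congr 1
        push_cast
        ring
      calc (2 : ℝ) ^ K * 2 ^ (K * r) * (C1 * x / Real.log w * ∑ a ∈ smoothRange z y, divTerm f a)
          ≤ (2 : ℝ) ^ K * 2 ^ (K * r) * (C1 * x / Real.log w *
              (Real.exp (-(A * r / 2)) * (C2 * (Real.log z / r) ^ 2))) := by
            have : 0 ≤ Real.log w := Real.log_nonneg (by linarith)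
            gcongr
        _ = (2 : ℝ) ^ K * C1 * C2 * x * Real.log z *
              (2 ^ (K * r) * Real.exp (-(A * r / 2))) * (((r : ℝ) + 1) / (r : ℝ) ^ 2) := by
            rw [hlw]
            field_simp
        _ ≤ (2 : ℝ) ^ K * C1 * C2 * x * Real.log z * Real.exp (-1) ^ r * 2 := by
            rw [he]
            gcongr
            rw [div_le_iff₀ (by positivity)]
            nlinarith
        _ = _ := by ring
    · have hcard : (#(smoothRange z y) : ℝ) ≤ z := by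
        refine le_trans (Nat.cast_le.2 ((card_filter_le _ _).trans (le_of_eq ?_)))
          (Nat.floor_le hz0.le)
        rw [Nat.card_Icc, Nat.add_sub_cancel]
      rw [show 18 * (f.natDegree : ℝ) + 6 = ((4 : ℕ) : ℝ) + E by rw [hE]; push_cast; ring,
        Real.rpow_add hz0, Real.rpow_natCast,
        show (z : ℝ) ^ 4 * z ^ E = z * (z * (z * z * z ^ E)) by ring, mul_assoc ((2 : ℝ) ^ K)]
      have : 0 ≤ z * z * z ^ E := by positivity
      gcongr
      exact hpow r hr.2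
  · rw [sum_add_distrib, sum_const, nsmul_eq_mul, Nat.card_Icc, Nat.add_sub_cancel, ← mul_sum]
    refine add_le_add ?_ ?_
    · have hsum' : ∑ r ∈ Icc 1 N, Real.exp (-1) ^ r ≤ S := hS ▸
        (summable_geometric_of_lt_one (Real.exp_pos _).le
          (Real.exp_lt_one_iff.2 (by norm_num))).sum_le_tsum _
            fun r _ => pow_nonneg (Real.exp_pos _).le r
      calc 2 * (2 : ℝ) ^ K * C1 * C2 * x * Real.log z * ∑ r ∈ Icc 1 N, Real.exp (-1) ^ r
          ≤ 2 * (2 : ℝ) ^ K * C1 * C2 * x * Real.log z * S := by gcongr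
        _ = (2 * (2 : ℝ) ^ K * C1 * C2 * S) * (x * Real.log z) := by ring
        _ ≤ max (2 * (2 : ℝ) ^ K * C1 * C2 * S) (2 ^ K) * (x * Real.log z) := by
            gcongr
            exact le_max_left _ _
        _ = _ := by ring
    · have hNz : (N : ℝ) ≤ z := by
        have h1 : (N : ℝ) * 1 ≤ (N : ℝ) * Real.log Q0 :=
          mul_le_mul_of_nonneg_left (by linarith) (Nat.cast_nonneg N)
        have h2 := Real.log_le_sub_one_of_pos hz0
        linarith
      have e7 : z ^ (18 * (f.natDegree : ℝ) + 7) = z * z ^ (18 * (f.natDegree : ℝ) + 6) := by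
        rw [show 18 * (f.natDegree : ℝ) + 7 = 1 + (18 * (f.natDegree : ℝ) + 6) by ring,
          Real.rpow_add hz0, Real.rpow_one]
      rw [e7, ← mul_assoc, ← mul_assoc, mul_comm (N : ℝ)]
      gcongr
      exact le_max_right _ _

/-- The class of a large power of a small prime. -/
theorem exists_sumTwo_le (hirr : Irreducible f) (hd : 0 < f.natDegree) :
    ∃ C : ℝ, ∀ (x : ℕ) (z : ℝ), 256 ≤ z → z ≤ x →
      ∑ m ∈ midPowers z, (#(multArgs f x m) : ℝ) ≤ C * x * z ^ (-(3 / 16) : ℝ) := by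
  obtain ⟨R, -, hR⟩ := exists_rootMod_pow_le hirr hd
  refine ⟨132 * R, fun x z hz hzx => ?_⟩
  have hz0 : 0 < z := by linarith
  have hs : 0 < Real.sqrt z := Real.sqrt_pos.2 hz0
  refine (sum_le_sum (g := fun _ => 2 * (x : ℝ) * (R / Real.sqrt z)) fun m hm => ?_).trans ?_
  · rw [midPowers, mem_filter, mem_image] at hm
    obtain ⟨⟨⟨p, j⟩, hpj, rfl⟩, h1, h2⟩ := hm
    have hp : p.Prime := (mem_filter.1 (mem_product.1 hpj).1).2
    have hmx : ((p ^ j : ℕ) : ℝ) ≤ x := h2.trans (((Real.rpow_le_rpow_of_exponent_le (by linarith)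
      (by norm_num)).trans_eq (Real.rpow_one z)).trans hzx)
    refine (card_multArgs_le f (pow_pos hp.pos j) (Nat.cast_le.1 hmx)).trans ?_
    refine mul_le_mul_of_nonneg_left (div_le_div₀ (Nat.cast_nonneg R) (Nat.cast_le.2 (hR p j hp))
      hs h1.le) (by positivity)
  · rw [sum_const, nsmul_eq_mul]
    obtain ⟨u, hu⟩ : ∃ u : ℝ, u = z ^ (1 / 4 : ℝ) := ⟨_, rfl⟩
    obtain ⟨v, hv⟩ : ∃ v : ℝ, v = z ^ (1 / 16 : ℝ) := ⟨_, rfl⟩
    have hu1 : 1 ≤ u := hu ▸ Real.one_le_rpow (by linarith) (by norm_num)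
    have hv1 : 1 ≤ v := hv ▸ Real.one_le_rpow (by linarith) (by norm_num)
    have hlog : Real.logb 2 z + 1 ≤ 33 * v := by
      have h1 := Real.log_le_rpow_div hz0.le (show (0 : ℝ) < 1 / 16 by norm_num)
      rw [← hv, le_div_iff₀ (by norm_num)] at h1
      have h2 := Real.log_two_gt_d9
      have h3 : Real.logb 2 z ≤ 32 * v := by
        rw [Real.logb, div_le_iff₀ (by linarith)]
        nlinarith
      linarith
    have hcard : (#(midPowers z) : ℝ) ≤ 2 * u * (33 * v) := by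
      refine le_trans (Nat.cast_le.2 ((card_filter_le _ _).trans card_image_le)) ?_
      rw [card_product, card_range, Nat.cast_mul, ← hu]
      refine mul_le_mul (le_trans (Nat.cast_le.2 ((card_filter_le _ _).trans (card_range _).le))
        ?_) ?_ (Nat.cast_nonneg _) (by linarith)
      · have := Nat.ceil_lt_add_one (show 0 ≤ u by linarith)
        linarith
      · push_cast
        have := Nat.floor_le (Real.logb_nonneg one_lt_two (show 1 ≤ z by linarith))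
        linarith
    refine (mul_le_mul_of_nonneg_right hcard (by positivity)).trans_eq ?_
    rw [show (-(3 / 16) : ℝ) = 1 / 4 + 1 / 16 - 1 / 2 by norm_num, Real.rpow_sub hz0,
      Real.rpow_add hz0, ← hu, ← hv, ← Real.sqrt_eq_rpow]
    ring

/-- The class of the very smooth `a`. -/
theorem exists_sumFour_le (hirr : Irreducible f) (hd : 0 < f.natDegree) {Q0 : ℕ} (hQ0 : 2 ≤ Q0) :
    ∃ C : ℝ, ∀ (x : ℕ) (z : ℝ), 256 ≤ z → z ≤ x →
      ∑ a ∈ smoothRange z Q0, (#(multArgs f x a) : ℝ) ≤ C * x * z ^ (-(1 / 8) : ℝ) := by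
  obtain ⟨C, hC0, hC⟩ := exists_smooth_sum_le hirr hd ((1 / 4 : ℝ) * Real.log Q0)
  refine ⟨2 * (C * Real.log Q0 ^ 2), fun x z hz hzx => ?_⟩
  have hz0 : 0 < z := by linarith
  refine (sum_le_sum (g := fun a : ℕ => 2 * (x : ℝ) * z ^ (-(1 / 8) : ℝ) *
    (divTerm f a * (a : ℝ) ^ (1 / 4 : ℝ))) fun a ha => ?_).trans ?_
  · rw [smoothRange, mem_filter, mem_Icc] at ha
    have haz : (a : ℝ) ≤ z := (Nat.cast_le.2 ha.1.2).trans (Nat.floor_le hz0.le)
    refine (card_multArgs_le f ha.1.1 (Nat.cast_le.1 (haz.trans hzx))).trans ?_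
    rw [mul_assoc (2 * (x : ℝ)) (z ^ _)]
    refine mul_le_mul_of_nonneg_left ?_ (by positivity)
    have h1 : (rootMod f a : ℝ) / a ≤ divTerm f a := by
      rw [divTerm]
      have hτ : (1 : ℝ) ≤ #a.divisors := Nat.one_le_cast.2
        (card_pos.2 ⟨1, Nat.one_mem_divisors.2 (by omega)⟩)
      have := one_le_primeWeight f a
      have h0 : 0 ≤ (rootMod f a : ℝ) / a := by positivity
      calc (rootMod f a : ℝ) / a = 1 * ((rootMod f a : ℝ) / a) * 1 := by ring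
        _ ≤ #a.divisors * ((rootMod f a : ℝ) / a) * primeWeight f a := by gcongr
        _ = _ := by ring
    have h2 : 1 ≤ z ^ (-(1 / 8) : ℝ) * (a : ℝ) ^ (1 / 4 : ℝ) := by
      rw [Real.rpow_neg hz0.le, inv_mul_eq_div, one_le_div (Real.rpow_pos_of_pos hz0 _),
        show (1 / 8 : ℝ) = 1 / 2 * (1 / 4) by norm_num, Real.rpow_mul hz0.le, ← Real.sqrt_eq_rpow]
      exact Real.rpow_le_rpow (Real.sqrt_nonneg z) ha.2.1.le (by norm_num)
    calc (rootMod f a : ℝ) / a ≤ divTerm f a * 1 := by rw [mul_one]; exact h1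
      _ ≤ divTerm f a * (z ^ (-(1 / 8) : ℝ) * (a : ℝ) ^ (1 / 4 : ℝ)) :=
          mul_le_mul_of_nonneg_left h2 (divTerm_nonneg f a)
      _ = _ := by ring
  · rw [← mul_sum]
    refine (mul_le_mul_of_nonneg_left (hC Q0 hQ0 (1 / 4) (by norm_num) le_rfl le_rfl _
      fun a ha => ?_) (by positivity)).trans_eq (by ring)
    rw [smoothRange, mem_filter, mem_Icc] at ha
    exact ⟨by omega, fun p hp => Nat.cast_le.1 (ha.2.2 p hp)⟩

theorem card_divisors_value_le (f : ℤ[X]) {x n : ℕ} (hn : n < x) {z D : ℝ} {K Q0 : ℕ}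
    (hz : 1 < z) (hQ0 : 1 < Q0) (hv : (value f n : ℝ) ≤ z ^ K) (hD0 : 0 ≤ D)
    (hD : (#(value f n).divisors : ℝ) ≤ D) :
    (#(value f n).divisors : ℝ) ≤
      (∑ a ∈ Icc 1 ⌊z⌋₊, if n ∈ roughArgs f x (z ^ (1 / 4 : ℝ)) a then
        (2 : ℝ) ^ (4 * K) * #a.divisors else 0) +
      (∑ m ∈ midPowers z, if n ∈ multArgs f x m then D else 0) +
      (∑ r ∈ Icc 1 ⌊Real.log z / Real.log Q0⌋₊, ∑ a ∈ smoothRange z (z ^ ((1 : ℝ) / r)),
        if n ∈ roughArgs f x (z ^ ((1 : ℝ) / (r + 1))) a then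
          (2 : ℝ) ^ (K * (r + 1)) * #a.divisors else 0) +
      ∑ a ∈ smoothRange z Q0, if n ∈ multArgs f x a then D else 0 := by
  have h1 : ∀ a : ℕ, 0 ≤ if n ∈ roughArgs f x (z ^ (1 / 4 : ℝ)) a then
      (2 : ℝ) ^ (4 * K) * #a.divisors else 0 := fun a => by split_ifs <;> positivity
  have h2 : ∀ m : ℕ, 0 ≤ if n ∈ multArgs f x m then D else 0 := fun m => by
    split_ifs <;> linarith
  have h3 : ∀ r a : ℕ, 0 ≤ if n ∈ roughArgs f x (z ^ ((1 : ℝ) / (r + 1))) a then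
      (2 : ℝ) ^ (K * (r + 1)) * #a.divisors else 0 := fun r a => by split_ifs <;> positivity
  have h4 : ∀ r : ℕ, 0 ≤ ∑ a ∈ smoothRange z (z ^ ((1 : ℝ) / r)),
      if n ∈ roughArgs f x (z ^ ((1 : ℝ) / (r + 1))) a then
        (2 : ℝ) ^ (K * (r + 1)) * #a.divisors else 0 := fun r => sum_nonneg fun a _ => h3 r a
  have s1 := sum_nonneg (s := Icc 1 ⌊z⌋₊) fun a _ => h1 a
  have s2 := sum_nonneg (s := midPowers z) fun m _ => h2 m
  have s3 := sum_nonneg (s := Icc 1 ⌊Real.log z / Real.log Q0⌋₊) fun r _ => h4 r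
  have s4 := sum_nonneg (s := smoothRange z Q0) fun m _ => h2 m
  rcases eq_or_ne (value f n) 0 with h0 | h0
  · rw [h0, Nat.divisors_zero, card_empty, Nat.cast_zero]
    linarith
  have hnr : n ∈ range x := mem_range.2 hn
  rcases classify h0 hz hQ0 hv with ⟨a, ha0, haz, hav, hfree, hτ⟩ | ⟨m, hm, hmv⟩ |
    ⟨r, a, hr, hrQ, haz, has, hap, hav, hfree, hτ⟩ | ⟨a, haz, has, hap, hav⟩
  · have hmem : n ∈ roughArgs f x (z ^ (1 / 4 : ℝ)) a := mem_filter.2
      ⟨hnr, hav, fun p hp hpp hpv => hfree p hpp (Nat.lt_ceil.1 (mem_range.1 hp)) hpv⟩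
    have := single_le_sum (fun a _ => h1 a) (mem_Icc.2 ⟨ha0, Nat.le_floor haz⟩)
    rw [if_pos hmem] at this
    have hτ' : (#(value f n).divisors : ℝ) ≤ (2 : ℝ) ^ (4 * K) * #a.divisors := by
      rw [mul_comm]
      exact_mod_cast hτ
    linarith
  · have := single_le_sum (fun m _ => h2 m) hm
    rw [if_pos (show n ∈ multArgs f x m from mem_filter.2 ⟨hnr, hmv⟩)] at this
    linarith
  · have hmem : n ∈ roughArgs f x (z ^ ((1 : ℝ) / (r + 1))) a := mem_filter.2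
      ⟨hnr, hav, fun p hp hpp hpv => hfree p hpp (Nat.lt_ceil.1 (mem_range.1 hp)) hpv⟩
    have hlQ : 0 < Real.log Q0 := Real.log_pos (Nat.one_lt_cast.2 hQ0)
    have hr' : r ∈ Icc 1 ⌊Real.log z / Real.log Q0⌋₊ :=
      mem_Icc.2 ⟨hr, Nat.le_floor ((le_div_iff₀ hlQ).2 hrQ)⟩
    have ha' : a ∈ smoothRange z (z ^ ((1 : ℝ) / r)) := by
      refine mem_filter.2 ⟨mem_Icc.2 ⟨?_, Nat.le_floor haz⟩, has, hap⟩
      exact Nat.cast_pos.1 ((Real.sqrt_nonneg z).trans_lt has)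
    have t1 := single_le_sum (fun a _ => h3 r a) ha'
    rw [if_pos hmem] at t1
    have t2 := single_le_sum (fun r _ => h4 r) hr'
    have hτ' : (#(value f n).divisors : ℝ) ≤ (2 : ℝ) ^ (K * (r + 1)) * #a.divisors := by
      rw [mul_comm]
      exact_mod_cast hτ
    linarith
  · have ha' : a ∈ smoothRange z Q0 := by
      refine mem_filter.2 ⟨mem_Icc.2 ⟨?_, Nat.le_floor haz⟩, has,
        fun p hp => Nat.cast_le.2 (hap p hp)⟩
      exact Nat.cast_pos.1 ((Real.sqrt_nonneg z).trans_lt has)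
    have := single_le_sum (fun m _ => h2 m) ha'
    rw [if_pos (show n ∈ multArgs f x a from mem_filter.2 ⟨hnr, hav⟩)] at this
    linarith

theorem sum_range_ite {x : ℕ} {S : Finset ℕ} (hS : S ⊆ range x) (c : ℝ) :
    ∑ n ∈ range x, (if n ∈ S then c else 0) = c * #S := by
  rw [sum_ite_mem, inter_eq_right.2 hS, sum_const, nsmul_eq_mul, mul_comm]

/-- **Erdős's upper bound.** -/
theorem exists_upper (hirr : Irreducible f) (hd : 0 < f.natDegree) :
    ∃ C : ℝ, ∀ x : ℕ, 2 ≤ x →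
      ∑ n ∈ range x, (#(value f n).divisors : ℝ) ≤ C * x * Real.log x := by
  obtain ⟨g, hg⟩ : ∃ g : ℝ, g = f.natDegree := ⟨_, rfl⟩
  have hg1 : 1 ≤ g := hg ▸ Nat.one_le_cast.2 hd
  obtain ⟨θ, hθ⟩ : ∃ θ : ℝ, θ = 1 / (4 * (18 * g + 7)) := ⟨_, rfl⟩
  have hθ0 : 0 < θ := by rw [hθ]; positivity
  have hθ1 : θ * (18 * g + 7) = 1 / 4 := by rw [hθ]; field_simp
  have hθ2 : θ ≤ 1 / 100 := by
    rw [hθ]
    exact one_div_le_one_div_of_le (by norm_num) (by linarith)
  obtain ⟨K, hK⟩ : ∃ K : ℕ, K = ⌈(g + 1) / θ⌉₊ := ⟨_, rfl⟩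
  obtain ⟨C1, hC1, h1⟩ := exists_sumOne_le hirr hd
  obtain ⟨C3, Q0, hQ0, h3⟩ := exists_sumThree_le hirr hd K
  obtain ⟨C2, h2⟩ := exists_sumTwo_le hirr hd
  obtain ⟨C4, h4⟩ := exists_sumFour_le hirr hd hQ0
  obtain ⟨ε, hε⟩ : ∃ ε : ℝ, ε = θ / (16 * (g + 1)) := ⟨_, rfl⟩
  obtain ⟨D, hD1, hD⟩ := FA.RepresentationBound.card_divisors_isBigO ε (hε ▸ by positivity)
  obtain ⟨c, hc⟩ : ∃ c : ℝ, c = ∑ i ∈ range (f.natDegree + 1), |(f.coeff i : ℝ)| := ⟨_, rfl⟩
  have hev : ∀ᶠ x : ℕ in atTop, c ≤ (x : ℝ) ∧ 256 ≤ (x : ℝ) ^ θ ∧ 1 ≤ Real.log x :=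
    (tendsto_natCast_atTop_atTop.eventually_ge_atTop c).and
      ((((tendsto_rpow_atTop hθ0).comp tendsto_natCast_atTop_atTop).eventually_ge_atTop 256).and
        ((Real.tendsto_log_atTop.comp tendsto_natCast_atTop_atTop).eventually_ge_atTop 1))
  obtain ⟨x0, hx0⟩ := eventually_atTop.1 hev
  obtain ⟨B, hB⟩ : ∃ B : ℝ, B = (2 : ℝ) ^ (4 * K) * (C1 + 1) + D * |C2| + 2 * |C3| + D * |C4| :=
    ⟨_, rfl⟩
  obtain ⟨B0, hB0⟩ : ∃ B0 : ℝ, B0 = ∑ n ∈ range x0, (#(value f n).divisors : ℝ) := ⟨_, rfl⟩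
  have hB00 : 0 ≤ B0 := hB0 ▸ sum_nonneg fun n _ => Nat.cast_nonneg _
  refine ⟨B + B0 / Real.log 2, fun x hx => ?_⟩
  have hB' : 0 ≤ B := by rw [hB]; positivity
  have hX2 : (2 : ℝ) ≤ x := Nat.ofNat_le_cast.2 hx
  have hlog2 : 0 < Real.log 2 := Real.log_pos one_lt_two
  have hl2x : Real.log 2 ≤ Real.log x := Real.log_le_log two_pos hX2
  have hxlog : 0 < (x : ℝ) * Real.log x := by have := hlog2.trans_le hl2x; positivity
  rcases lt_or_ge x x0 with hlt | hge
  · have h : ∑ n ∈ range x, (#(value f n).divisors : ℝ) ≤ B0 := hB0 ▸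
      sum_le_sum_of_subset_of_nonneg (range_mono hlt.le) fun n _ _ => Nat.cast_nonneg _
    have h' : B0 ≤ B0 / Real.log 2 * (x * Real.log x) := by
      rw [div_mul_eq_mul_div, le_div_iff₀ hlog2]
      refine mul_le_mul_of_nonneg_left ?_ hB00
      nlinarith
    nlinarith
  obtain ⟨hcx, hz, hlx⟩ := hx0 x hge
  obtain ⟨z, hzdef⟩ : ∃ z : ℝ, z = (x : ℝ) ^ θ := ⟨_, rfl⟩
  rw [← hzdef] at hz
  have hx0' : (0 : ℝ) < x := by linarith
  have hz0 : 0 < z := by linarith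
  have hzx : z ≤ x := hzdef ▸ (Real.rpow_le_rpow_of_exponent_le (by linarith)
    (by linarith : θ ≤ 1)).trans_eq (Real.rpow_one _)
  have hlz : Real.log z ≤ Real.log x := Real.log_le_log hz0 hzx
  obtain ⟨T, hT⟩ : ∃ T : ℝ, T = D * z ^ (1 / 16 : ℝ) := ⟨_, rfl⟩
  have hT0 : 0 ≤ T := hT ▸ by positivity
  have hval : ∀ n < x, (value f n : ℝ) ≤ (x : ℝ) ^ (g + 1) := fun n hn => by
    refine (abs_eval_le f hn.le (by omega)).trans ?_
    rw [← hc, hg, Real.rpow_add hx0', Real.rpow_one, Real.rpow_natCast, mul_comm]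
    gcongr
  have hxK : (x : ℝ) ^ (g + 1) ≤ z ^ K := by
    rw [hzdef, ← Real.rpow_mul_natCast hx0'.le]
    refine Real.rpow_le_rpow_of_exponent_le (by linarith) ?_
    have := Nat.le_ceil ((g + 1) / θ)
    rw [← hK, div_le_iff₀ hθ0] at this
    linarith
  have hdiv : ∀ n < x, (#(value f n).divisors : ℝ) ≤ T := fun n hn => by
    rcases eq_or_ne (value f n) 0 with h0 | h0
    · rw [h0, Nat.divisors_zero, card_empty, Nat.cast_zero]
      exact hT0
    refine (hD _ h0).trans ?_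
    rw [hT]
    refine mul_le_mul_of_nonneg_left ?_ (by linarith)
    refine (Real.rpow_le_rpow (Nat.cast_nonneg _) (hval n hn) (hε ▸ by positivity)).trans_eq ?_
    rw [hzdef, ← Real.rpow_mul hx0'.le, ← Real.rpow_mul hx0'.le]
    congr 1
    rw [hε]
    field_simp
  refine (sum_le_sum fun n hn => card_divisors_value_le f (mem_range.1 hn) (z := z) (K := K)
    (by linarith) hQ0 ((hval n (mem_range.1 hn)).trans hxK) hT0
    (hdiv n (mem_range.1 hn))).trans ?_
  simp only [sum_add_distrib]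
  rw [sum_comm (t := Icc 1 ⌊z⌋₊), sum_comm (t := midPowers z),
    sum_comm (t := smoothRange z (Q0 : ℝ)),
    sum_comm (t := Icc 1 ⌊Real.log z / Real.log Q0⌋₊)]
  simp only [sum_comm (s := range x) (t := smoothRange z _)]
  rw [sum_congr rfl fun a _ => sum_range_ite (S := roughArgs f x (z ^ (1 / 4 : ℝ)) a)
      (filter_subset _ _) _,
    sum_congr rfl fun m _ => sum_range_ite (S := multArgs f x m) (filter_subset _ _) _,
    sum_congr rfl fun r _ => sum_congr rfl fun a _ =>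
      sum_range_ite (S := roughArgs f x (z ^ ((1 : ℝ) / ((r : ℕ) + 1))) a) (filter_subset _ _) _,
    sum_congr rfl fun m _ => sum_range_ite (S := multArgs f x m) (filter_subset _ _) _]
  have e1 : ∑ a ∈ Icc 1 ⌊z⌋₊, (2 : ℝ) ^ (4 * K) * (#a.divisors : ℝ) *
      #(roughArgs f x (z ^ (1 / 4 : ℝ)) a) = (2 : ℝ) ^ (4 * K) * sumOne f x z := by
    rw [sumOne, mul_sum]
    exact sum_congr rfl fun a _ => by ring
  have e3 : ∑ r ∈ Icc 1 ⌊Real.log z / Real.log Q0⌋₊, ∑ a ∈ smoothRange z (z ^ ((1 : ℝ) / r)),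
      (2 : ℝ) ^ (K * (r + 1)) * (#a.divisors : ℝ) *
        #(roughArgs f x (z ^ ((1 : ℝ) / ((r : ℕ) + 1))) a) = sumThree f x z K Q0 := by
    rw [sumThree]
    exact sum_congr rfl fun r _ => sum_congr rfl fun a _ => by ring
  rw [e1, e3, ← mul_sum, ← mul_sum]
  obtain ⟨L, hL⟩ : ∃ L : ℝ, L = (x : ℝ) * Real.log x := ⟨_, rfl⟩
  have hxL : (x : ℝ) ≤ L := by rw [hL]; nlinarith
  have hz7 : z ^ (18 * (f.natDegree : ℝ) + 7) ≤ x := by
    rw [hzdef, ← Real.rpow_mul hx0'.le, ← hg]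
    exact (Real.rpow_le_rpow_of_exponent_le (by linarith)
      (show θ * (18 * g + 7) ≤ 1 by linarith)).trans_eq (Real.rpow_one _)
  have b1 : (2 : ℝ) ^ (4 * K) * sumOne f x z ≤ (2 : ℝ) ^ (4 * K) * (C1 + 1) * L := by
    rw [mul_assoc, add_mul, one_mul]
    refine mul_le_mul_of_nonneg_left ((h1 x z hz).trans (add_le_add ?_ ?_)) (by positivity)
    · rw [hL, ← mul_assoc]
      gcongr
    · exact ((Real.rpow_le_rpow_of_exponent_le (by linarith) (by linarith)).trans hz7).trans hxL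
  have b3 : sumThree f x z K Q0 ≤ 2 * |C3| * L := by
    refine (h3 x z hz).trans ?_
    have u1 : C3 * x * Real.log z ≤ |C3| * L := by
      rw [mul_assoc, hL]
      refine (le_abs_self _).trans ?_
      have : 0 ≤ Real.log z := Real.log_nonneg (by linarith)
      rw [abs_mul, abs_of_nonneg (by positivity : 0 ≤ (x : ℝ) * Real.log z)]
      gcongr
    have u2 : C3 * z ^ (18 * (f.natDegree : ℝ) + 7) ≤ |C3| * L :=
      mul_le_mul (le_abs_self _) (hz7.trans hxL) (by positivity) (abs_nonneg _)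
    linarith
  have hpowT : ∀ e : ℝ, 1 / 16 ≤ e → ∀ C : ℝ,
      T * (C * x * z ^ (-e)) ≤ D * |C| * L := fun e he C => by
    rw [show T * (C * x * z ^ (-e)) = D * C * (x * (z ^ (1 / 16 : ℝ) * z ^ (-e))) by
      rw [hT]; ring, ← Real.rpow_add hz0]
    refine mul_le_mul (mul_le_mul_of_nonneg_left (le_abs_self C) (by linarith)) ?_
      (by positivity) (by positivity)
    refine le_trans (mul_le_of_le_one_right hx0'.le ?_) hxL
    exact Real.rpow_le_one_of_one_le_of_nonpos (by linarith) (by linarith)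
  have b2 := (mul_le_mul_of_nonneg_left (h2 x z hz hzx) hT0).trans (hpowT _ (by norm_num) C2)
  have b4 := (mul_le_mul_of_nonneg_left (h4 x z hz hzx) hT0).trans (hpowT _ (by norm_num) C4)
  have hfin : B * L ≤ (B + B0 / Real.log 2) * x * Real.log x := by
    rw [mul_assoc (B + B0 / Real.log 2), hL]
    gcongr
    exact le_add_of_nonneg_right (by positivity)
  refine le_trans ?_ hfin
  rw [hB, add_mul, add_mul, add_mul]
  exact add_le_add (add_le_add (add_le_add b1 b2) b3) b4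

end FA.ErdosDivisor
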